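/-
S48 / Cheb (helper4 + helper8): the interface between the analytic half (helper8: Weber's count,
L-series of `χ ∘ N`, "Dirichlet over `F`") and the Galois half (helper4: Deuring, crossing with
`ℚ(ζ_m)`, counting, dictionary with the Prelude's Frobenius elements).

`CycloTopStmt` = Chebotarev's density theorem (lower bound, with an `O(1)` error on `(1, 2]`)
for the cyclotomic extension `N = F(ζ_m)` of a TOTALLY COMPLEX number field `F`, `m` prime:
the degree-one primes of `F` outside `S` whose Frobenius in `Gal(N/F)` is a given `σ₀` have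
mass at least `(1/[N:F]) log (1/(s-1)) - B`.
-/
import Mathlib
import Fermat.Agent.ExtVan.Artin

set_option autoImplicit false

open NumberField IsDedekindDomain Ideal

namespace Fermat.Agent.S48lib.Cheb.Gal

/-- **cyclotomic top** (target of helper8's `Cheb/CycloTop.lean`). -/
def CycloTopStmt : Prop :=
  ∀ (F N : Type) [Field F] [NumberField F] [Field N] [NumberField N] [Algebra F N]
    [IsAbelianGalois F N] (m : ℕ), m.Prime → IsCyclotomicExtension {m} F N →
    NumberField.IsTotallyComplex F →
    ∀ S : Finset (HeightOneSpectrum (𝓞 F)),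
      (∀ q ∉ S, ∀ Q : Ideal (𝓞 N), Q.IsPrime → Q.LiesOver q.asIdeal →
        Q.ramificationIdx (𝓞 F) = 1) →
      ∀ σ₀ : N ≃ₐ[F] N, ∃ B : ℝ, ∀ s ∈ Set.Ioc (1 : ℝ) 2,
        (1 / (Module.finrank F N : ℝ)) * Real.log (1 / (s - 1)) - B ≤
          ∑' q : HeightOneSpectrum (𝓞 F),
            {q : HeightOneSpectrum (𝓞 F) | q ∉ S ∧ (absNorm q.asIdeal).Prime ∧
                ExtVan.frob F N q = σ₀}.indicator
              (fun q => (absNorm q.asIdeal : ℝ) ^ (-s)) q

end Fermat.Agent.S48lib.Cheb.Gal
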