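/-
S48 / Cheb, Galois half (helper4), brick (E): in a finite cyclic group `A` whose order is divisible
by `d ^ k`, at most `ω(d) · |A| / 2 ^ k` elements have order not divisible by `d`.
-/
import Mathlib

set_option autoImplicit false

open Finset

namespace Fermat.Agent.S48lib.Cheb.Gal

/-- arithmetic core: `t ∣ ℓ ^ (e * k) * N₁`, `ℓ ^ e ∤ t` ⇒ `t * ℓ ^ k ∣ ℓ ^ (e * k) * N₁`. -/
theorem mul_pow_dvd_of_not_pow_dvd {ℓ e k t N₁ : ℕ} (hℓ : ℓ.Prime)
    (ht : t ∣ ℓ ^ (e * k) * N₁) (hnot : ¬ ℓ ^ e ∣ t) : t * ℓ ^ k ∣ ℓ ^ (e * k) * N₁ := by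
  rcases Nat.eq_zero_or_pos k with rfl | hk
  · simpa using ht
  have ht0 : t ≠ 0 := by
    rintro rfl
    exact hnot (dvd_zero _)
  obtain ⟨v, t', ht', rfl⟩ := Nat.exists_eq_pow_mul_and_not_dvd ht0 ℓ hℓ.ne_one
  have hv : v < e := by
    by_contra h
    rw [not_lt] at h
    exact hnot (Dvd.dvd.mul_right (pow_dvd_pow ℓ h) t')
  have hcop : Nat.Coprime t' ℓ := ((Nat.Prime.coprime_iff_not_dvd hℓ).mpr ht').symm
  have h1 : t' ∣ N₁ :=
    (Nat.Coprime.pow_right (e * k) hcop).dvd_of_dvd_mul_left ((Dvd.intro_left _ rfl).trans ht)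
  have h2 : v + k ≤ e * k := by nlinarith [hv, hk]
  calc ℓ ^ v * t' * ℓ ^ k = ℓ ^ (v + k) * t' := by ring
    _ ∣ ℓ ^ (e * k) * N₁ := Nat.mul_dvd_mul (pow_dvd_pow ℓ h2) h1

open scoped Classical in
theorem card_not_prime_pow_dvd_orderOf_le {A : Type*} [Group A] [Fintype A] [IsCyclic A]
    {ℓ e k : ℕ} (hℓ : ℓ.Prime) (he : 1 ≤ e) (hdvd : ℓ ^ (e * k) ∣ Fintype.card A) :
    #{a : A | ¬ ℓ ^ e ∣ orderOf a} ≤ Fintype.card A / 2 ^ k := by
  obtain ⟨N₁, hN₁⟩ := hdvd
  have hpos : 0 < Fintype.card A := Fintype.card_pos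
  have hD : ℓ ^ k ∣ Fintype.card A := by
    rw [hN₁]
    exact Dvd.dvd.mul_right (pow_dvd_pow ℓ (Nat.le_mul_of_pos_left k he)) N₁
  have hDpos : 0 < Fintype.card A / ℓ ^ k :=
    Nat.div_pos (Nat.le_of_dvd hpos hD) (pow_pos hℓ.pos k)
  calc #{a : A | ¬ ℓ ^ e ∣ orderOf a} ≤ #{a : A | a ^ (Fintype.card A / ℓ ^ k) = 1} := by
        apply Finset.card_le_card
        intro a ha
        rw [Finset.mem_filter] at ha ⊢
        refine ⟨ha.1, ?_⟩
        rw [← orderOf_dvd_iff_pow_eq_one]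
        have h1 : orderOf a ∣ ℓ ^ (e * k) * N₁ := hN₁ ▸ orderOf_dvd_card
        have h2 := mul_pow_dvd_of_not_pow_dvd hℓ h1 ha.2
        rw [← hN₁] at h2
        exact Nat.dvd_div_of_mul_dvd (by rwa [mul_comm] at h2)
    _ ≤ Fintype.card A / ℓ ^ k := IsCyclic.card_pow_eq_one_le hDpos
    _ ≤ Fintype.card A / 2 ^ k :=
        Nat.div_le_div_left (Nat.pow_le_pow_left hℓ.two_le k) (pow_pos (by norm_num) k)

open scoped Classical in
/-- **(E)**: at most `ω(d) · |A| / 2 ^ k` elements of a cyclic group of order divisible by `d ^ k`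
have order not divisible by `d`. -/
theorem card_not_dvd_orderOf_le {A : Type*} [Group A] [Fintype A] [IsCyclic A] {d k : ℕ}
    (hd : d ≠ 0) (hdk : d ^ k ∣ Fintype.card A) :
    #{a : A | ¬ d ∣ orderOf a} ≤ d.primeFactors.card * (Fintype.card A / 2 ^ k) := by
  have hsub : ({a : A | ¬ d ∣ orderOf a} : Finset A) ⊆
      d.primeFactors.biUnion fun ℓ => ({a : A | ¬ ℓ ^ d.factorization ℓ ∣ orderOf a} : Finset A) := by
    intro a ha
    rw [Finset.mem_filter] at ha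
    rw [Finset.mem_biUnion]
    have h1 := ha.2
    rw [Nat.dvd_iff_prime_pow_dvd_dvd] at h1
    push Not at h1
    obtain ⟨p, j, hp, hpd, hpa⟩ := h1
    have hj : j ≠ 0 := by
      rintro rfl
      exact hpa (by simp)
    have hpd' : p ∣ d := (dvd_pow_self p hj).trans hpd
    refine ⟨p, Nat.mem_primeFactors.mpr ⟨hp, hpd', hd⟩, ?_⟩
    rw [Finset.mem_filter]
    refine ⟨Finset.mem_univ _, fun h => hpa ?_⟩
    have h2 : j ≤ d.factorization p := (hp.pow_dvd_iff_le_factorization hd).mp hpd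
    exact (pow_dvd_pow p h2).trans h
  calc #{a : A | ¬ d ∣ orderOf a}
      ≤ #(d.primeFactors.biUnion fun ℓ =>
          ({a : A | ¬ ℓ ^ d.factorization ℓ ∣ orderOf a} : Finset A)) := Finset.card_le_card hsub
    _ ≤ ∑ ℓ ∈ d.primeFactors, #{a : A | ¬ ℓ ^ d.factorization ℓ ∣ orderOf a} :=
        Finset.card_biUnion_le
    _ ≤ ∑ _ℓ ∈ d.primeFactors, Fintype.card A / 2 ^ k := by
        apply Finset.sum_le_sum
        intro ℓ hℓ
        have hp := Nat.prime_of_mem_primeFactors hℓ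
        have he : 1 ≤ d.factorization ℓ :=
          (hp.dvd_iff_one_le_factorization hd).mp (Nat.dvd_of_mem_primeFactors hℓ)
        apply card_not_prime_pow_dvd_orderOf_le hp he
        refine Dvd.dvd.trans ?_ hdk
        rw [pow_mul]
        exact pow_dvd_pow_of_dvd (Nat.ordProj_dvd d ℓ) k
    _ = d.primeFactors.card * (Fintype.card A / 2 ^ k) := by
        rw [Finset.sum_const, smul_eq_mul]

open scoped Classical in
/-- real form: the proportion of elements whose order is divisible by `d`. -/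
theorem card_dvd_orderOf_ge {A : Type*} [Group A] [Fintype A] [IsCyclic A] {d k : ℕ}
    (hd : d ≠ 0) (hdk : d ^ k ∣ Fintype.card A) :
    (1 - (d.primeFactors.card : ℝ) / 2 ^ k) * (Fintype.card A : ℝ) ≤
      (#{a : A | d ∣ orderOf a} : ℝ) := by
  have h1 := card_not_dvd_orderOf_le (A := A) hd hdk
  have h2 : #{a : A | d ∣ orderOf a} + #{a : A | ¬ d ∣ orderOf a} = Fintype.card A := by
    rw [Finset.card_filter_add_card_filter_not, Finset.card_univ]
  have h3 : ((Fintype.card A / 2 ^ k : ℕ) : ℝ) ≤ (Fintype.card A : ℝ) / 2 ^ k := by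
    have := Nat.cast_div_le (α := ℝ) (m := Fintype.card A) (n := 2 ^ k)
    simpa using this
  have h4 : (#{a : A | ¬ d ∣ orderOf a} : ℝ) ≤
      (d.primeFactors.card : ℝ) * ((Fintype.card A : ℝ) / 2 ^ k) := by
    calc (#{a : A | ¬ d ∣ orderOf a} : ℝ)
        ≤ ((d.primeFactors.card * (Fintype.card A / 2 ^ k) : ℕ) : ℝ) := by exact_mod_cast h1
      _ = (d.primeFactors.card : ℝ) * ((Fintype.card A / 2 ^ k : ℕ) : ℝ) := by push_cast; ring
      _ ≤ _ := by gcongr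
  have h5 : (#{a : A | d ∣ orderOf a} : ℝ) + (#{a : A | ¬ d ∣ orderOf a} : ℝ) =
      (Fintype.card A : ℝ) := by exact_mod_cast h2
  have h6 : (1 - (d.primeFactors.card : ℝ) / 2 ^ k) * (Fintype.card A : ℝ) =
      (Fintype.card A : ℝ) - (d.primeFactors.card : ℝ) * ((Fintype.card A : ℝ) / 2 ^ k) := by
    ring
  rw [h6]
  linarith

end Fermat.Agent.S48lib.Cheb.Gal
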