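/-
S48 / Cheb, Galois half (helper4), brick (D): crossing a finite Galois extension `M/ℚ` with the
cyclotomic field `ℚ(ζ_m)`, `m` a prime not dividing the discriminant of `M`.

* group-theoretic core: `zpow_eq_one_of_map_eq_one`, `map_eq_one_of_sq_eq_one`;
* `crossHom M hζ : Gal(L/ℚ) →* Gal(M/ℚ) × (ℤ/m)ˣ` is injective when `M ⊔ ℚ(ζ) = ⊤` and bijective
  when moreover `m ∤ disc M`;
* for `g` with `2 · ord (g|_M) ∣ ord (χ g)`: `L = L^{⟨g⟩}(ζ)` is a cyclotomic extension of the fixed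
  field of `g`, and this fixed field is totally complex as soon as `√-1 ∈ M`.
-/
import Mathlib

set_option autoImplicit false
set_option linter.unusedSectionVars false
set_option linter.style.haveILetI false

open NumberField IntermediateField

namespace Fermat.Agent.S48lib.Cheb.Gal

/-! ### group-theoretic core -/

section Group

variable {G' G A : Type*} [Group G'] [Group G] [Group A] (π : G' →* G) (χ : G' →* A)

theorem zpow_eq_one_of_map_eq_one (hinj : ∀ h : G', π h = 1 → χ h = 1 → h = 1) {g : G'}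
    (hord : orderOf (π g) ∣ orderOf (χ g)) (j : ℤ) (hj : χ (g ^ j) = 1) : g ^ j = 1 := by
  apply hinj _ _ hj
  rw [map_zpow] at hj ⊢
  exact orderOf_dvd_iff_zpow_eq_one.mp
    ((Int.natCast_dvd_natCast.mpr hord).trans (orderOf_dvd_iff_zpow_eq_one.mpr hj))

theorem map_eq_one_of_sq_eq_one {g : G'} (hord : 2 * orderOf (π g) ∣ orderOf (χ g)) {c : G'}
    (hc : c ∈ Subgroup.zpowers g) (hc2 : c ^ 2 = 1) : π c = 1 := by
  obtain ⟨j, rfl⟩ := Subgroup.mem_zpowers_iff.mp hc
  have h1 : χ g ^ (2 * j) = 1 := by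
    have : (g ^ j) ^ (2 : ℤ) = 1 := by rw [zpow_ofNat]; exact hc2
    rw [← map_zpow, mul_comm, zpow_mul, this, map_one]
  have h2 : ((2 * orderOf (π g) : ℕ) : ℤ) ∣ 2 * j :=
    (Int.natCast_dvd_natCast.mpr hord).trans (orderOf_dvd_iff_zpow_eq_one.mpr h1)
  have h3 : (orderOf (π g) : ℤ) ∣ j := by
    push_cast at h2
    exact (mul_dvd_mul_iff_left (two_ne_zero)).mp h2
  rw [map_zpow]
  exact orderOf_dvd_iff_zpow_eq_one.mp h3

end Group

/-! ### the crossing homomorphism -/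

section Field

variable {L : Type*} [Field L] [NumberField L]

theorem mem_fixingSubgroup_adjoin_simple {g : L ≃ₐ[ℚ] L} {x : L} (h : g x = x) :
    g ∈ (ℚ⟮x⟯).fixingSubgroup := by
  rw [← Subgroup.zpowers_le, ← IntermediateField.le_iff_le, adjoin_simple_le_iff,
    mem_fixedField_iff]
  intro f hf
  have h1 : Subgroup.zpowers g ≤ MulAction.stabilizer (L ≃ₐ[ℚ] L) x := by
    rw [Subgroup.zpowers_le, MulAction.mem_stabilizer_iff]
    exact h
  exact MulAction.mem_stabilizer_iff.mp (h1 hf)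

variable [IsGalois ℚ L] (M : IntermediateField ℚ L) [IsGalois ℚ M] {m : ℕ} [NeZero m] {ζ : L}
  (hζ : IsPrimitiveRoot ζ m)

/-- the crossing homomorphism `g ↦ (g|_M, χ_m(g))`. -/
noncomputable def crossHom : (L ≃ₐ[ℚ] L) →* (M ≃ₐ[ℚ] M) × (ZMod m)ˣ :=
  (AlgEquiv.restrictNormalHom M).prod (hζ.autToPow ℚ)

@[simp] theorem crossHom_fst (g : L ≃ₐ[ℚ] L) :
    (crossHom M hζ g).1 = AlgEquiv.restrictNormalHom M g := rfl

@[simp] theorem crossHom_snd (g : L ≃ₐ[ℚ] L) : (crossHom M hζ g).2 = hζ.autToPow ℚ g := rfl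

theorem apply_zeta_eq_of_autToPow_eq_one (hm : 1 < m) {g : L ≃ₐ[ℚ] L}
    (h : hζ.autToPow ℚ g = 1) : g ζ = ζ := by
  have h1 := hζ.autToPow_spec ℚ g
  rw [h] at h1
  haveI : Fact (1 < m) := ⟨hm⟩
  rw [Units.val_one, ZMod.val_one, pow_one] at h1
  exact h1.symm

theorem autToPow_eq_one_of_apply_zeta_eq (hm : 1 < m) {g : L ≃ₐ[ℚ] L} (h : g ζ = ζ) :
    hζ.autToPow ℚ g = 1 := by
  have h1 := hζ.autToPow_spec ℚ g
  rw [h] at h1
  have h2 : ζ ^ (hζ.autToPow ℚ g : ZMod m).val = ζ ^ 1 := by rw [h1, pow_one]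
  have h3 := hζ.pow_inj (ZMod.val_lt _) hm h2
  haveI : Fact (1 < m) := ⟨hm⟩
  apply Units.ext
  apply ZMod.val_injective
  rw [h3, Units.val_one, ZMod.val_one]

/-- the crossing homomorphism is injective when `M(ζ) = L`. -/
theorem crossHom_injective (hm : 1 < m) (htop : M ⊔ ℚ⟮ζ⟯ = ⊤) :
    Function.Injective (crossHom M hζ) := by
  rw [injective_iff_map_eq_one]
  intro g hg
  have h1 : AlgEquiv.restrictNormalHom M g = 1 := congrArg Prod.fst hg
  have h2 : hζ.autToPow ℚ g = 1 := congrArg Prod.snd hg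
  have h3 : g ∈ (M ⊔ ℚ⟮ζ⟯).fixingSubgroup := by
    rw [fixingSubgroup_sup]
    refine ⟨?_, mem_fixingSubgroup_adjoin_simple (apply_zeta_eq_of_autToPow_eq_one hζ hm h2)⟩
    change g ∈ M.fixingSubgroup
    rw [IntermediateField.mem_fixingSubgroup_iff]
    intro x hx
    have h4 := AlgEquiv.restrictNormal_commutes g M ⟨x, hx⟩
    have h5 : AlgEquiv.restrictNormal g M = 1 := h1
    rw [h5] at h4
    exact h4.symm
  rw [htop, IntermediateField.fixingSubgroup_top, Subgroup.mem_bot] at h3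
  exact h3

theorem crossHom_injective' (hm : 1 < m) (htop : M ⊔ ℚ⟮ζ⟯ = ⊤) (h : L ≃ₐ[ℚ] L)
    (h1 : AlgEquiv.restrictNormalHom M h = 1) (h2 : hζ.autToPow ℚ h = 1) : h = 1 := by
  apply crossHom_injective M hζ hm htop
  rw [map_one]
  exact Prod.ext h1 h2

include hζ in
/-- the discriminants of `M` and `ℚ(ζ_m)` are coprime when `m ∤ disc M`. -/
theorem isCoprime_discr_adjoin [hp : Fact m.Prime] (hdisc : ¬ (m : ℤ) ∣ NumberField.discr M) :
    IsCoprime (NumberField.discr M) (NumberField.discr ℚ⟮ζ⟯) := by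
  haveI : IsCyclotomicExtension {m} ℚ ℚ⟮ζ⟯ := hζ.intermediateField_adjoin_isCyclotomicExtension ℚ
  rw [IsCyclotomicExtension.Rat.discr_prime m ℚ⟮ζ⟯]
  have h1 : IsCoprime (NumberField.discr M) (m : ℤ) :=
    ((Nat.prime_iff_prime_int.mp hp.out).irreducible.coprime_iff_not_dvd.mpr hdisc).symm
  exact IsCoprime.mul_right (IsCoprime.pow_right isCoprime_one_right.neg_right) h1.pow_right

include hζ in
theorem linearDisjoint_adjoin [hp : Fact m.Prime] (hdisc : ¬ (m : ℤ) ∣ NumberField.discr M) :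
    M.LinearDisjoint ℚ⟮ζ⟯ :=
  linearDisjoint_of_isGalois_isCoprime_discr L M ℚ⟮ζ⟯ (isCoprime_discr_adjoin M hζ hdisc)

include hζ in
theorem card_gal_eq [hp : Fact m.Prime] (hdisc : ¬ (m : ℤ) ∣ NumberField.discr M)
    (htop : M ⊔ ℚ⟮ζ⟯ = ⊤) :
    Nat.card (L ≃ₐ[ℚ] L) = Nat.card ((M ≃ₐ[ℚ] M) × (ZMod m)ˣ) := by
  haveI : IsCyclotomicExtension {m} ℚ ℚ⟮ζ⟯ := hζ.intermediateField_adjoin_isCyclotomicExtension ℚ
  have h1 := (linearDisjoint_adjoin M hζ hdisc).finrank_sup
  rw [htop, IntermediateField.finrank_top', IsCyclotomicExtension.Rat.finrank m ℚ⟮ζ⟯] at h1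
  rw [Nat.card_prod, IsGalois.card_aut_eq_finrank, IsGalois.card_aut_eq_finrank, h1,
    Nat.card_eq_fintype_card, ZMod.card_units_eq_totient]

/-- **crossing**: `Gal(L/ℚ) ≃ Gal(M/ℚ) × (ℤ/m)ˣ` when `L = M(ζ_m)`, `m` prime, `m ∤ disc M`. -/
theorem crossHom_bijective [hp : Fact m.Prime] (hdisc : ¬ (m : ℤ) ∣ NumberField.discr M)
    (htop : M ⊔ ℚ⟮ζ⟯ = ⊤) : Function.Bijective (crossHom M hζ) :=
  (Nat.bijective_iff_injective_and_card _).mpr
    ⟨crossHom_injective M hζ hp.out.one_lt htop, card_gal_eq M hζ hdisc htop⟩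

/-! ### the fixed field of a "good" element -/

theorem conj_eq_neg_of_sq_eq_neg_one {z : ℂ} (hz : z ^ 2 = -1) : (starRingEnd ℂ) z = -z := by
  have h1 : (z - Complex.I) * (z + Complex.I) = 0 := by
    have : (z - Complex.I) * (z + Complex.I) = z ^ 2 - Complex.I ^ 2 := by ring
    rw [this, hz, Complex.I_sq]
    ring
  rcases mul_eq_zero.mp h1 with h | h
  · rw [sub_eq_zero.mp h, Complex.conj_I]
  · rw [eq_neg_of_add_eq_zero_left h, map_neg, Complex.conj_I]

variable (g : L ≃ₐ[ℚ] L)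

/-- `L = F(ζ)` for the fixed field `F` of `g`, when `ord (g|_M) ∣ ord (χ g)`. -/
theorem isCyclotomicExtension_fixedField (hm : 1 < m) (htop : M ⊔ ℚ⟮ζ⟯ = ⊤)
    (hord : orderOf (AlgEquiv.restrictNormalHom M g) ∣ orderOf (hζ.autToPow ℚ g)) :
    IsCyclotomicExtension {m} (fixedField (Subgroup.zpowers g)) L := by
  set F := fixedField (Subgroup.zpowers g) with hF
  have hadj : (F⟮ζ⟯ : IntermediateField F L) = ⊤ := by
    rw [← IsGalois.fixedField_fixingSubgroup (F⟮ζ⟯), ← IntermediateField.fixedField_bot]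
    congr 1
    rw [eq_bot_iff]
    intro σ hσ
    rw [Subgroup.mem_bot]
    have h1 : σ.restrictScalars ℚ ∈ F.fixingSubgroup := by
      rw [IntermediateField.mem_fixingSubgroup_iff]
      intro x hx
      exact σ.commutes ⟨x, hx⟩
    have h1' : σ.restrictScalars ℚ ∈ Subgroup.zpowers g :=
      (SetLike.ext_iff.mp (fixingSubgroup_fixedField (Subgroup.zpowers g)) _).mp h1
    obtain ⟨j, hj⟩ := Subgroup.mem_zpowers_iff.mp h1'
    have h2 : (g ^ j) ζ = ζ := by
      rw [hj]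
      exact (IntermediateField.mem_fixingSubgroup_iff _ σ).mp hσ ζ (mem_adjoin_simple_self F ζ)
    have h3 := zpow_eq_one_of_map_eq_one (AlgEquiv.restrictNormalHom M) (hζ.autToPow ℚ)
      (crossHom_injective' M hζ hm htop) hord j (autToPow_eq_one_of_apply_zeta_eq hζ hm h2)
    ext x
    have h4 : (σ.restrictScalars ℚ) x = x := by rw [← hj, h3]; rfl
    exact h4
  haveI := hζ.intermediateField_adjoin_isCyclotomicExtension F
  exact IsCyclotomicExtension.equiv {m} F (F⟮ζ⟯)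
    ((IntermediateField.equivOfEq hadj).trans IntermediateField.topEquiv)

/-- the fixed field of `g` is totally complex when `2 · ord (g|_M) ∣ ord (χ g)` and `√-1 ∈ M`. -/
theorem isTotallyComplex_fixedField
    (hord : 2 * orderOf (AlgEquiv.restrictNormalHom M g) ∣ orderOf (hζ.autToPow ℚ g))
    {I : L} (hI : I ∈ M) (hI2 : I ^ 2 = -1) :
    IsTotallyComplex (fixedField (Subgroup.zpowers g)) := by
  set F := fixedField (Subgroup.zpowers g) with hF
  refine ⟨fun w => ?_⟩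
  rw [← InfinitePlace.not_isReal_iff_isComplex]
  intro hw
  obtain ⟨W, rfl⟩ := InfinitePlace.comap_surjective (K := L) w
  set ψ : L →+* ℂ := W.embedding with hψ
  have hreal : ComplexEmbedding.IsReal (ψ.comp (algebraMap F L)) := by
    change InfinitePlace.IsReal (W.comap (algebraMap F L)) at hw
    rwa [← InfinitePlace.mk_embedding W, InfinitePlace.comap_mk, InfinitePlace.isReal_mk_iff] at hw
  obtain ⟨σ, hσ⟩ := ComplexEmbedding.exists_comp_symm_eq_of_comp_eq (k := ℚ) ψ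
    (ComplexEmbedding.conjugate ψ) (by ext x; simp)
  have hc : ComplexEmbedding.IsConj ψ σ.symm := hσ.symm
  -- `σ.symm` fixes `F`
  have hmem : σ.symm ∈ Subgroup.zpowers g := by
    rw [← fixingSubgroup_fixedField (Subgroup.zpowers g), IntermediateField.mem_fixingSubgroup_iff]
    intro x hx
    apply ψ.injective
    rw [hc.eq]
    exact RingHom.congr_fun (ComplexEmbedding.isReal_iff.mp hreal) ⟨x, hx⟩
  have hc2 : σ.symm ^ 2 = 1 := by
    ext x
    rw [pow_two, AlgEquiv.mul_apply]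
    exact ComplexEmbedding.isConj_apply_apply hc x
  have h1 := map_eq_one_of_sq_eq_one (AlgEquiv.restrictNormalHom M) (hζ.autToPow ℚ) hord hmem hc2
  have h2 : σ.symm I = I := by
    have h3 := AlgEquiv.restrictNormal_commutes σ.symm M ⟨I, hI⟩
    have h4 : AlgEquiv.restrictNormal σ.symm M = 1 := h1
    rw [h4] at h3
    exact h3.symm
  have h5 := hc.eq I
  rw [h2] at h5
  have h6 : (ψ I) ^ 2 = -1 := by rw [← map_pow, hI2, map_neg, map_one]
  have h7 : star (ψ I) = -(ψ I) := conj_eq_neg_of_sq_eq_neg_one h6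
  rw [h7] at h5
  have h8 : ψ I = 0 := by
    have : (2 : ℂ) * ψ I = 0 := by linear_combination h5
    simpa using this
  rw [h8] at h6
  norm_num at h6

end Field

end Fermat.Agent.S48lib.Cheb.Gal
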