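/-
S48 / Cheb, Galois half (helper4): lower Dirichlet densities of pairwise disjoint sets add.
-/
import Mathlib
import Fermat.Agent.S48lib.Iface.Density
import Fermat.Agent.S48lib.Dens.Basic

set_option autoImplicit false

namespace Fermat.Agent.S48lib.Cheb.Gal

theorem lowerDensityGE_empty : LowerDensityGE (∅ : Set ℕ) 0 := by
  intro c' hc'
  refine ⟨1, one_pos, fun s hs1 hs2 => ?_⟩
  have h1 := Dens.log_inv_sub_one_pos hs1 (by linarith)
  have h2 := Dens.primeSum_nonneg (∅ : Set ℕ) s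
  nlinarith

theorem lowerDensityGE_union_disjoint {A B : Set ℕ} {c₁ c₂ : ℝ} (hA : LowerDensityGE A c₁)
    (hB : LowerDensityGE B c₂) (hd : Disjoint A B) : LowerDensityGE (A ∪ B) (c₁ + c₂) := by
  intro c' hc'
  set t : ℝ := (c₁ + c₂ - c') / 2 with ht
  have ht0 : 0 < t := by rw [ht]; linarith
  obtain ⟨δ₁, hδ₁, h₁⟩ := hA (c₁ - t) (by linarith)
  obtain ⟨δ₂, hδ₂, h₂⟩ := hB (c₂ - t) (by linarith)
  refine ⟨min δ₁ δ₂, lt_min hδ₁ hδ₂, fun s hs1 hs2 => ?_⟩
  have e1 := h₁ s hs1 (lt_of_lt_of_le hs2 (by gcongr; exact min_le_left _ _))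
  have e2 := h₂ s hs1 (lt_of_lt_of_le hs2 (by gcongr; exact min_le_right _ _))
  rw [Dens.primeSum_union_of_disjoint hd hs1]
  have h3 : c' = (c₁ - t) + (c₂ - t) := by rw [ht]; ring
  rw [h3, add_mul]
  exact add_le_add e1 e2

theorem lowerDensityGE_biUnion {ι : Type*} [DecidableEq ι] (J : Finset ι) (B : ι → Set ℕ)
    (c : ι → ℝ) (h : ∀ j ∈ J, LowerDensityGE (B j) (c j))
    (hd : ∀ i ∈ J, ∀ j ∈ J, i ≠ j → Disjoint (B i) (B j)) :
    LowerDensityGE (⋃ j ∈ J, B j) (∑ j ∈ J, c j) := by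
  induction J using Finset.induction_on with
  | empty => simpa using lowerDensityGE_empty
  | insert a J ha ih =>
    rw [Finset.sum_insert ha, Finset.set_biUnion_insert]
    apply lowerDensityGE_union_disjoint (h a (Finset.mem_insert_self a J))
    · exact ih (fun j hj => h j (Finset.mem_insert_of_mem hj))
        (fun i hi j hj hij => hd i (Finset.mem_insert_of_mem hi) j (Finset.mem_insert_of_mem hj) hij)
    · rw [Set.disjoint_iUnion₂_right]
      intro j hj
      exact hd a (Finset.mem_insert_self a J) j (Finset.mem_insert_of_mem hj)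
        (fun haj => ha (haj ▸ hj))

end Fermat.Agent.S48lib.Cheb.Gal
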