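/-
S48 / Cheb, Galois half (helper4): the crossing argument.  `M ≤ ℚ̄` finite Galois over `ℚ`
containing `√-1`, `τ ∈ Gal(M/ℚ)`.  Crossing with `ℚ(ζ_m)` for primes `m ≡ 1 mod (2 ord τ)^k`,
`m ∤ disc M`, and summing the densities of the classes of the "good" lifts `(τ, a)` gives
lower density `≥ 1/|Z(τ)|` for the class of `τ`.
-/
import Fermat.Agent.S48lib.Cheb.Gal.Cross
import Fermat.Agent.S48lib.Cheb.Gal.Count
import Fermat.Agent.S48lib.Cheb.Gal.ClassDensity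
import Fermat.Agent.S48lib.Cheb.Gal.DensUnion

set_option autoImplicit false
set_option linter.unusedSectionVars false
set_option linter.style.haveILetI false

open NumberField IntermediateField

namespace Fermat.Agent.S48lib.Cheb.Gal

open Fermat.Agent.ExtVan.InertiaLift Fermat.Agent.S29lib.X

/-! ### a tower `M ≤ M' ≤ ℚ̄` -/

section Tower

variable {M M' : IntermediateField ℚ Qb} [FiniteDimensional ℚ M] [IsGalois ℚ M]
  [FiniteDimensional ℚ M'] [IsGalois ℚ M'] (hMM' : M ≤ M')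

/-- `M` as an intermediate field of `M'`. -/
noncomputable abbrev ML : IntermediateField ℚ M' := IntermediateField.restrict hMM'

/-- `M ≃ M_L`. -/
noncomputable abbrev eML : M ≃ₐ[ℚ] ML hMM' := IntermediateField.restrictAlgEquiv hMM'

theorem coe_eML (x : M) : (((eML hMM' x : ML hMM') : M') : Qb) = (x : Qb) := rfl

instance isGalois_ML : IsGalois ℚ (ML hMM') := IsGalois.of_algEquiv (eML hMM')

/-- restriction `Gal(M'/ℚ) → Gal(M/ℚ)`. -/
noncomputable def resMM' : (M' ≃ₐ[ℚ] M') →* (M ≃ₐ[ℚ] M) :=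
  (AlgEquiv.autCongr (eML hMM')).symm.toMonoidHom.comp (AlgEquiv.restrictNormalHom (ML hMM'))

theorem resMM'_eq (g : M' ≃ₐ[ℚ] M') :
    AlgEquiv.autCongr (eML hMM') (resMM' hMM' g) = AlgEquiv.restrictNormalHom (ML hMM') g := by
  rw [resMM', MonoidHom.comp_apply]
  exact (AlgEquiv.autCongr (eML hMM')).apply_symm_apply _

theorem coe_resMM'_apply (g : M' ≃ₐ[ℚ] M') (x : M) :
    ((resMM' hMM' g x : M) : Qb) = ((g ⟨x, hMM' x.2⟩ : M') : Qb) := by
  have h1 : resMM' hMM' g x =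
      (eML hMM').symm (AlgEquiv.restrictNormalHom (ML hMM') g (eML hMM' x)) := by
    simp [resMM', AlgEquiv.autCongr_symm]
  rw [h1, ← coe_eML hMM' ((eML hMM').symm _), AlgEquiv.apply_symm_apply]
  have h2 := AlgEquiv.restrictNormal_commutes g (ML hMM') (eML hMM' x)
  exact congrArg (fun y : M' => (y : Qb)) h2

theorem resMM'_resM (σ : DS.GQ) : resMM' hMM' (resM M' σ) = resM M σ := by
  ext x
  rw [coe_resMM'_apply]
  have h1 : ((resM M' σ ⟨x, hMM' x.2⟩ : M') : Qb) = σ (x : Qb) :=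
    AlgEquiv.restrictNormal_commutes σ M' ⟨x, hMM' x.2⟩
  have h2 : ((resM M σ x : M) : Qb) = σ (x : Qb) := AlgEquiv.restrictNormal_commutes σ M x
  rw [h1, h2]

end Tower

/-! ### crossing with `ℚ(ζ_m)` inside `ℚ̄` -/

section Crossing

variable {M M' : IntermediateField ℚ Qb} [FiniteDimensional ℚ M] [IsGalois ℚ M]
  [FiniteDimensional ℚ M'] [IsGalois ℚ M'] (hMM' : M ≤ M') {m : ℕ} [NeZero m] {ζ : Qb}
  (hζ : IsPrimitiveRoot ζ m) (hζM' : ζ ∈ M')

/-- `ζ` as an element of `M'`. -/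
abbrev zL : M' := ⟨ζ, hζM'⟩

include hζ in
theorem isPrimitiveRoot_zL : IsPrimitiveRoot (zL hζM') m :=
  IsPrimitiveRoot.coe_submonoidClass_iff.mp hζ

/-- the inclusion `M' → ℚ̄` as a `ℚ`-algebra map. -/
noncomputable def iotaL (M' : IntermediateField ℚ Qb) : M' →ₐ[ℚ] Qb := M'.val

theorem iotaL_apply (x : M') : iotaL M' x = (x : Qb) := rfl

theorem map_ML : (ML hMM').map (iotaL M') = M := by
  ext y
  rw [IntermediateField.mem_map]
  constructor
  · rintro ⟨x, hx, rfl⟩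
    exact (IntermediateField.mem_restrict hMM' x).mp hx
  · intro hy
    exact ⟨⟨y, hMM' hy⟩, (IntermediateField.mem_restrict hMM' ⟨y, hMM' hy⟩).mpr hy, rfl⟩

theorem ML_sup_adjoin_eq_top (hsup : M ⊔ ℚ⟮ζ⟯ = M') : ML hMM' ⊔ ℚ⟮zL hζM'⟯ = ⊤ := by
  have h1 : (ML hMM' ⊔ ℚ⟮zL hζM'⟯).map (iotaL M') = M' := by
    rw [IntermediateField.map_sup, map_ML, IntermediateField.adjoin_map, Set.image_singleton,
      iotaL_apply]
    exact hsup
  rw [eq_top_iff]
  intro x _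
  have h2 : iotaL M' x ∈ (ML hMM' ⊔ ℚ⟮zL hζM'⟯).map (iotaL M') := by
    rw [h1]
    exact x.2
  obtain ⟨x', hx', hxx'⟩ := (IntermediateField.mem_map _).mp h2
  have h3 : x' = x := Subtype.ext hxx'
  rwa [← h3]

theorem discr_ML : NumberField.discr (ML hMM') = NumberField.discr M :=
  (NumberField.discr_eq_discr_of_algEquiv M (eML hMM')).symm

/-- the cyclotomic character of `Gal(M'/ℚ)`. -/
noncomputable def chiL : (M' ≃ₐ[ℚ] M') →* (ZMod m)ˣ := (isPrimitiveRoot_zL hζ hζM').autToPow ℚ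

/-- the crossing homomorphism `Gal(M'/ℚ) → Gal(M/ℚ) × (ℤ/m)ˣ`. -/
noncomputable def crossHom' : (M' ≃ₐ[ℚ] M') →* (M ≃ₐ[ℚ] M) × (ZMod m)ˣ :=
  (resMM' hMM').prod (chiL hζ hζM')

theorem crossHom'_eq (g : M' ≃ₐ[ℚ] M') :
    crossHom' hMM' hζ hζM' g =
      ((AlgEquiv.autCongr (eML hMM')).symm (crossHom (ML hMM') (isPrimitiveRoot_zL hζ hζM') g).1,
        (crossHom (ML hMM') (isPrimitiveRoot_zL hζ hζM') g).2) := rfl

theorem crossHom'_injective (hm : 1 < m) (hsup : M ⊔ ℚ⟮ζ⟯ = M') :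
    Function.Injective (crossHom' hMM' hζ hζM') := by
  intro g g' h
  apply crossHom_injective (ML hMM') (isPrimitiveRoot_zL hζ hζM') hm
    (ML_sup_adjoin_eq_top hMM' hζM' hsup)
  rw [crossHom'_eq, crossHom'_eq, Prod.mk.injEq] at h
  exact Prod.ext ((AlgEquiv.autCongr (eML hMM')).symm.injective h.1) h.2

theorem crossHom'_surjective [hp : Fact m.Prime] (hdisc : ¬ (m : ℤ) ∣ NumberField.discr M)
    (hsup : M ⊔ ℚ⟮ζ⟯ = M') : Function.Surjective (crossHom' hMM' hζ hζM') := by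
  rintro ⟨τ, a⟩
  have hdisc' : ¬ (m : ℤ) ∣ NumberField.discr (ML hMM') := by rwa [discr_ML]
  obtain ⟨g, hg⟩ := (crossHom_bijective (ML hMM') (isPrimitiveRoot_zL hζ hζM') hdisc'
    (ML_sup_adjoin_eq_top hMM' hζM' hsup)).2 (AlgEquiv.autCongr (eML hMM') τ, a)
  refine ⟨g, ?_⟩
  rw [crossHom'_eq, hg]
  exact Prod.ext ((AlgEquiv.autCongr (eML hMM')).symm_apply_apply τ) rfl

theorem orderOf_restrictNormalHom_ML (g : M' ≃ₐ[ℚ] M') :
    orderOf (AlgEquiv.restrictNormalHom (ML hMM') g) = orderOf (resMM' hMM' g) := by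
  rw [← resMM'_eq]
  exact MulEquiv.orderOf_eq _ _

/-- **density of the class of a good lift.** -/
theorem lowerDensityGE_conjSet_good (hB : CycloTopStmt) [hp : Fact m.Prime]
    (hsup : M ⊔ ℚ⟮ζ⟯ = M') {I : Qb} (hI : I ∈ M) (hI2 : I ^ 2 = -1) (g : M' ≃ₐ[ℚ] M')
    (hord : 2 * orderOf (resMM' hMM' g) ∣ orderOf (chiL hζ hζM' g)) (S : Finset ℕ) :
    LowerDensityGE (DS.frobSet (resM M') S (conjSet g))
      (1 / (Nat.card (Subgroup.centralizer ({g} : Set (M' ≃ₐ[ℚ] M'))) : ℝ)) := by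
  have htop := ML_sup_adjoin_eq_top hMM' hζM' hsup
  have hord2 : 2 * orderOf (AlgEquiv.restrictNormalHom (ML hMM') g) ∣
      orderOf ((isPrimitiveRoot_zL hζ hζM').autToPow ℚ g) := by
    rw [orderOf_restrictNormalHom_ML]
    exact hord
  have hcyc := isCyclotomicExtension_fixedField (ML hMM') (isPrimitiveRoot_zL hζ hζM') g
    hp.out.one_lt htop ((Dvd.intro_left 2 rfl).trans hord2)
  have hIL : (⟨I, hMM' hI⟩ : M') ∈ ML hMM' :=
    (IntermediateField.mem_restrict hMM' ⟨I, hMM' hI⟩).mpr hI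
  have hIL2 : (⟨I, hMM' hI⟩ : M') ^ 2 = -1 := Subtype.ext (by simpa using hI2)
  have htc := isTotallyComplex_fixedField (ML hMM') (isPrimitiveRoot_zL hζ hζM') g hord2 hIL hIL2
  exact lowerDensityGE_conjSet_of_cycloTop M' hB g hp.out hcyc htc S

include hζ hζM' in
/-- the centralizer of a lift is at most `(m - 1)` times the centralizer downstairs. -/
theorem card_centralizer_le [hp : Fact m.Prime] (hsup : M ⊔ ℚ⟮ζ⟯ = M') (g : M' ≃ₐ[ℚ] M') :
    Nat.card (Subgroup.centralizer ({g} : Set (M' ≃ₐ[ℚ] M'))) ≤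
      Nat.card (Subgroup.centralizer ({resMM' hMM' g} : Set (M ≃ₐ[ℚ] M))) * (m - 1) := by
  have hmem : ∀ h : Subgroup.centralizer ({g} : Set (M' ≃ₐ[ℚ] M')),
      resMM' hMM' h.1 ∈ Subgroup.centralizer ({resMM' hMM' g} : Set (M ≃ₐ[ℚ] M)) := by
    intro h
    rw [Subgroup.mem_centralizer_iff]
    intro x hx
    rw [Set.mem_singleton_iff] at hx
    subst hx
    have h1 := (Subgroup.mem_centralizer_iff.mp h.2) g (Set.mem_singleton g)
    rw [← map_mul, ← map_mul, h1]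
  let f : Subgroup.centralizer ({g} : Set (M' ≃ₐ[ℚ] M')) →
      Subgroup.centralizer ({resMM' hMM' g} : Set (M ≃ₐ[ℚ] M)) × (ZMod m)ˣ :=
    fun h => (⟨resMM' hMM' h.1, hmem h⟩, chiL hζ hζM' h.1)
  have hf : Function.Injective f := by
    intro a b hab
    apply Subtype.ext
    apply crossHom'_injective hMM' hζ hζM' hp.out.one_lt hsup
    have h1 : resMM' hMM' a.1 = resMM' hMM' b.1 :=
      congrArg (fun x : Subgroup.centralizer ({resMM' hMM' g} : Set (M ≃ₐ[ℚ] M)) × (ZMod m)ˣ =>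
        (x.1 : M ≃ₐ[ℚ] M)) hab
    have h2 : chiL hζ hζM' a.1 = chiL hζ hζM' b.1 := congrArg Prod.snd hab
    exact Prod.ext h1 h2
  have h3 := Nat.card_le_card_of_injective f hf
  rwa [Nat.card_prod, Nat.card_eq_fintype_card (α := (ZMod m)ˣ), ZMod.card_units_eq_totient,
    Nat.totient_prime hp.out] at h3

theorem frobSet_conjSet_subset (S : Finset ℕ) (g : M' ≃ₐ[ℚ] M') :
    DS.frobSet (resM M') S (conjSet g) ⊆ DS.frobSet (resM M) S (conjSet (resMM' hMM' g)) := by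
  rintro p ⟨hp, hpS, hfr⟩
  refine ⟨hp, hpS, fun A hA σ hσ => ?_⟩
  obtain ⟨h, hh⟩ := hfr A hA σ hσ
  refine ⟨resMM' hMM' h, ?_⟩
  rw [← resMM'_resM hMM' σ, hh, map_mul, map_mul, map_inv]

theorem disjoint_frobSet_conjSet (S : Finset ℕ) {g₁ g₂ : M' ≃ₐ[ℚ] M'}
    (hne : chiL hζ hζM' g₁ ≠ chiL hζ hζM' g₂) :
    Disjoint (DS.frobSet (resM M') S (conjSet g₁)) (DS.frobSet (resM M') S (conjSet g₂)) := by
  rw [Set.disjoint_left]
  rintro p ⟨hp, -, hfr₁⟩ ⟨-, -, hfr₂⟩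
  obtain ⟨A, σ, hA, hσ⟩ := Helper5.exists_isFrobeniusAt p hp
  obtain ⟨h₁, hh₁⟩ := hfr₁ A hA σ hσ
  obtain ⟨h₂, hh₂⟩ := hfr₂ A hA σ hσ
  apply hne
  have e1 : chiL hζ hζM' (resM M' σ) = chiL hζ hζM' g₁ := by
    rw [hh₁, map_mul, map_mul, map_inv, mul_comm, inv_mul_cancel_left]
  have e2 : chiL hζ hζM' (resM M' σ) = chiL hζ hζM' g₂ := by
    rw [hh₂, map_mul, map_mul, map_inv, mul_comm, inv_mul_cancel_left]
  rw [← e1, e2]

end Crossing

/-! ### the density of a conjugacy class -/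

section Main

open Finset in
open scoped Classical in
/-- **Chebotarev for one conjugacy class** (`√-1 ∈ M`), from the cyclotomic-top statement. -/
theorem lowerDensityGE_conjSet (hB : CycloTopStmt) (M : IntermediateField ℚ Qb)
    [FiniteDimensional ℚ M] [IsGalois ℚ M] {I : Qb} (hI : I ∈ M) (hI2 : I ^ 2 = -1)
    (τ : M ≃ₐ[ℚ] M) (S : Finset ℕ) :
    LowerDensityGE (DS.frobSet (resM M) S (conjSet τ))
      (1 / (Nat.card (Subgroup.centralizer ({τ} : Set (M ≃ₐ[ℚ] M))) : ℝ)) := by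
  intro c' hc'
  set Z : ℝ := (Nat.card (Subgroup.centralizer ({τ} : Set (M ≃ₐ[ℚ] M))) : ℝ) with hZdef
  have hZ : 0 < Z := by
    rw [hZdef]
    exact_mod_cast Nat.card_pos
  set n : ℕ := orderOf τ with hn
  have hn0 : 0 < n := orderOf_pos τ
  set ω : ℝ := ((2 * n).primeFactors.card : ℝ) with hω
  have hω0 : 0 ≤ ω := by rw [hω]; positivity
  have hpos : 0 < 1 - c' * Z := by
    have : c' * Z < 1 := by
      rw [lt_div_iff₀ hZ] at hc'
      exact hc'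
    linarith
  obtain ⟨k, hk⟩ : ∃ k : ℕ, ω / (1 - c' * Z) < (2 : ℝ) ^ k :=
    pow_unbounded_of_one_lt _ one_lt_two
  have h2k : (0 : ℝ) < 2 ^ k := by positivity
  have hc'' : c' < (1 - ω / 2 ^ k) / Z := by
    rw [lt_div_iff₀ hZ]
    rw [div_lt_iff₀ hpos] at hk
    have : ω / 2 ^ k < 1 - c' * Z := by
      rw [div_lt_iff₀ h2k]
      linarith
    linarith
  -- the auxiliary prime
  have hdisc0 : NumberField.discr M ≠ 0 := NumberField.discr_ne_zero M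
  obtain ⟨m, hm, hmgt, hmod⟩ := Nat.exists_prime_gt_modEq_one (k := (2 * n) ^ k)
    (NumberField.discr M).natAbs (pow_ne_zero _ (by omega))
  haveI : Fact m.Prime := ⟨hm⟩
  haveI : NeZero m := ⟨hm.ne_zero⟩
  have hdisc : ¬ (m : ℤ) ∣ NumberField.discr M := by
    intro h
    have h1 : m ∣ (NumberField.discr M).natAbs := Int.natCast_dvd.mp h
    have h2 : m ≤ (NumberField.discr M).natAbs :=
      Nat.le_of_dvd (Int.natAbs_pos.mpr hdisc0) h1
    omega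
  obtain ⟨ζ, hζ⟩ := HasEnoughRootsOfUnity.exists_primitiveRoot Qb m
  haveI : FiniteDimensional ℚ ℚ⟮ζ⟯ :=
    IntermediateField.adjoin.finiteDimensional (Algebra.IsIntegral.isIntegral ζ)
  haveI : IsCyclotomicExtension {m} ℚ ℚ⟮ζ⟯ := hζ.intermediateField_adjoin_isCyclotomicExtension ℚ
  haveI : IsGalois ℚ ℚ⟮ζ⟯ := IsCyclotomicExtension.isGalois {m} ℚ ℚ⟮ζ⟯
  haveI : Normal ℚ ↥(M ⊔ ℚ⟮ζ⟯) := by
    have h1 : Normal ℚ ↥M := inferInstance
    have h2 : Normal ℚ ↥ℚ⟮ζ⟯ := inferInstance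
    exact @IntermediateField.normal_sup ℚ Qb _ _ _ M ℚ⟮ζ⟯ h1 h2
  haveI : IsGalois ℚ ↥(M ⊔ ℚ⟮ζ⟯) := ⟨⟩
  have hMM' : M ≤ M ⊔ ℚ⟮ζ⟯ := le_sup_left
  have hζM' : ζ ∈ M ⊔ ℚ⟮ζ⟯ :=
    (le_sup_right : ℚ⟮ζ⟯ ≤ M ⊔ ℚ⟮ζ⟯) (IntermediateField.mem_adjoin_simple_self ℚ ζ)
  have hsurj := crossHom'_surjective hMM' hζ hζM' hdisc rfl
  choose lift hlift using fun a : (ZMod m)ˣ => hsurj (τ, a)
  have hres : ∀ a, resMM' hMM' (lift a) = τ := fun a => congrArg Prod.fst (hlift a)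
  have hchi : ∀ a, chiL hζ hζM' (lift a) = a := fun a => congrArg Prod.snd (hlift a)
  set J : Finset (ZMod m)ˣ := {a : (ZMod m)ˣ | 2 * n ∣ orderOf a} with hJ
  have hm1 : (0 : ℝ) < ((m - 1 : ℕ) : ℝ) := by
    have := hm.one_lt
    exact_mod_cast Nat.sub_pos_of_lt this
  -- densities of the good classes
  have hdens : ∀ a ∈ J, LowerDensityGE
      (DS.frobSet (resM (M ⊔ ℚ⟮ζ⟯)) S (conjSet (lift a))) (1 / (Z * ((m - 1 : ℕ) : ℝ))) := by
    intro a ha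
    have hord : 2 * orderOf (resMM' hMM' (lift a)) ∣ orderOf (chiL hζ hζM' (lift a)) := by
      rw [hres, hchi]
      exact (Finset.mem_filter.mp ha).2
    refine (lowerDensityGE_conjSet_good hMM' hζ hζM' hB rfl hI hI2 (lift a) hord S).mono ?_
    have h1 := card_centralizer_le hMM' hζ hζM' rfl (lift a)
    rw [hres] at h1
    have h2 : (Nat.card (Subgroup.centralizer
        ({lift a} : Set ((M ⊔ ℚ⟮ζ⟯ : IntermediateField ℚ Qb) ≃ₐ[ℚ] (M ⊔ ℚ⟮ζ⟯ : IntermediateField ℚ Qb)))) : ℝ) ≤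
        Z * ((m - 1 : ℕ) : ℝ) := by
      rw [hZdef]
      exact_mod_cast h1
    have h3 : (0 : ℝ) < (Nat.card (Subgroup.centralizer
        ({lift a} : Set ((M ⊔ ℚ⟮ζ⟯ : IntermediateField ℚ Qb) ≃ₐ[ℚ] (M ⊔ ℚ⟮ζ⟯ : IntermediateField ℚ Qb)))) : ℝ) := by
      exact_mod_cast Nat.card_pos
    exact one_div_le_one_div_of_le h3 h2
  have hdisj : ∀ a ∈ J, ∀ b ∈ J, a ≠ b → Disjoint
      (DS.frobSet (resM (M ⊔ ℚ⟮ζ⟯)) S (conjSet (lift a)))
      (DS.frobSet (resM (M ⊔ ℚ⟮ζ⟯)) S (conjSet (lift b))) := by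
    intro a _ b _ hab
    apply disjoint_frobSet_conjSet hζ hζM' S
    rw [hchi, hchi]
    exact hab
  have hunion := lowerDensityGE_biUnion J
    (fun a => DS.frobSet (resM (M ⊔ ℚ⟮ζ⟯)) S (conjSet (lift a)))
    (fun _ => 1 / (Z * ((m - 1 : ℕ) : ℝ))) hdens hdisj
  have hsub : (⋃ a ∈ J, DS.frobSet (resM (M ⊔ ℚ⟮ζ⟯)) S (conjSet (lift a))) ⊆
      DS.frobSet (resM M) S (conjSet τ) := by
    intro p hp
    simp only [Set.mem_iUnion] at hp
    obtain ⟨a, -, hpa⟩ := hp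
    have := frobSet_conjSet_subset hMM' S (lift a) hpa
    rwa [hres] at this
  -- the count
  have hcard : Fintype.card (ZMod m)ˣ = m - 1 := by
    rw [ZMod.card_units_eq_totient, Nat.totient_prime hm]
  have hdvd : (2 * n) ^ k ∣ Fintype.card (ZMod m)ˣ := by
    rw [hcard]
    exact (Nat.modEq_iff_dvd' hm.one_lt.le).mp hmod.symm
  have hcount := card_dvd_orderOf_ge (A := (ZMod m)ˣ) (d := 2 * n) (k := k) (by omega) hdvd
  rw [hcard] at hcount
  have hsum : (1 - ω / 2 ^ k) / Z ≤ ∑ _a ∈ J, 1 / (Z * ((m - 1 : ℕ) : ℝ)) := by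
    rw [Finset.sum_const, nsmul_eq_mul]
    have h1 : (1 - ω / 2 ^ k) * ((m - 1 : ℕ) : ℝ) ≤ (J.card : ℝ) := by
      rw [hJ, hω]
      convert hcount using 3
    rw [div_le_iff₀ hZ]
    have h2 : (J.card : ℝ) * (1 / (Z * ((m - 1 : ℕ) : ℝ))) * Z = (J.card : ℝ) / ((m - 1 : ℕ) : ℝ) := by
      field_simp
    rw [h2, le_div_iff₀ hm1]
    exact h1
  exact ((hunion.mono hsum).mono_set hsub) c' hc''

end Main

end Fermat.Agent.S48lib.Cheb.Gal
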