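/-
S48 / Cheb, Galois half (helper4): **`chebotarevStmt_of_cycloTop : CycloTopStmt → DS.ChebotarevStmt`**.

`φ : G_ℚ → G` surjective of finite level factors through `Gal(M/ℚ)` for a finite Galois `M ∋ √-1`;
a conjugation-stable `C` pulls back to a union of conjugacy classes of `Gal(M/ℚ)`, each of which has
lower density `≥ 1/|Z(τ)|` (`CrossDensity.lowerDensityGE_conjSet`); disjoint classes add up.
-/
import Fermat.Agent.S48lib.Cheb.Gal.CrossDensity

set_option autoImplicit false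
set_option linter.unusedSectionVars false
set_option linter.style.haveILetI false

open NumberField IntermediateField

namespace Fermat.Agent.S48lib.Cheb.Gal

open Fermat.Agent.ExtVan.InertiaLift Fermat.Agent.S29lib.X

/-! ### group theory -/

section Group

variable {G' G : Type*} [Group G'] [Group G]

/-- fibres of a surjective homomorphism: `|ψ⁻¹ C| = |C| · |ker ψ|`. -/
theorem natCard_preimage (ψ : G' →* G) (hψ : Function.Surjective ψ) (C : Set G) :
    Nat.card (ψ ⁻¹' C) = Nat.card C * Nat.card ψ.ker := by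
  rw [← Nat.card_prod]
  refine Nat.card_congr
    { toFun := fun x => (⟨ψ x.1, x.2⟩, ⟨(Function.surjInv hψ (ψ x.1))⁻¹ * x.1, ?_⟩)
      invFun := fun y => ⟨Function.surjInv hψ y.1.1 * y.2.1, ?_⟩
      left_inv := ?_
      right_inv := ?_ }
  · rw [MonoidHom.mem_ker, map_mul, map_inv, Function.surjInv_eq hψ, inv_mul_cancel]
  · rw [Set.mem_preimage, map_mul, Function.surjInv_eq hψ, MonoidHom.mem_ker.mp y.2.2, mul_one]
    exact y.1.2
  · intro x
    apply Subtype.ext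
    simp
  · rintro ⟨⟨c, hc⟩, ⟨k, hk⟩⟩
    have h1 : ψ (Function.surjInv hψ c * k) = c := by
      rw [map_mul, Function.surjInv_eq hψ, MonoidHom.mem_ker.mp hk, mul_one]
    apply Prod.ext
    · exact Subtype.ext h1
    · apply Subtype.ext
      simp only [h1]
      group

theorem natCard_preimage_mul [Finite G'] (ψ : G' →* G) (hψ : Function.Surjective ψ) (C : Set G) :
    Nat.card (ψ ⁻¹' C) * Nat.card G = Nat.card C * Nat.card G' := by
  have h1 := natCard_preimage ψ hψ C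
  have h2 := natCard_preimage ψ hψ Set.univ
  rw [Set.preimage_univ, Nat.card_univ, Nat.card_univ] at h2
  rw [h1, h2]
  ring

theorem conjSet_eq_orbit (τ : G') : conjSet τ = MulAction.orbit (ConjAct G') τ := by
  ext x
  constructor
  · rintro ⟨h, rfl⟩
    exact ⟨ConjAct.toConjAct h, by
      change ConjAct.toConjAct h • τ = _
      rw [ConjAct.smul_def]; rfl⟩
  · rintro ⟨c, rfl⟩
    exact ⟨ConjAct.ofConjAct c, by
      change c • τ = _
      rw [ConjAct.smul_def]⟩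

theorem natCard_conjSet_mul [Finite G'] (τ : G') :
    Nat.card (conjSet τ) * Nat.card (Subgroup.centralizer ({τ} : Set G')) = Nat.card G' := by
  classical
  haveI := Fintype.ofFinite G'
  rw [conjSet_eq_orbit, Subgroup.nat_card_centralizer_nat_card_stabilizer,
    Nat.card_eq_fintype_card, Nat.card_eq_fintype_card,
    MulAction.card_orbit_mul_card_stabilizer_eq_card_group (ConjAct G') τ]
  rw [Nat.card_eq_fintype_card]
  exact Fintype.card_congr ConjAct.toConjAct.toEquiv.symm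

theorem mem_conjSet_self (τ : G') : τ ∈ conjSet τ := ⟨1, by simp⟩

theorem conjSet_eq_of_mem {τ τ' : G'} (h : τ' ∈ conjSet τ) : conjSet τ' = conjSet τ := by
  obtain ⟨a, rfl⟩ := h
  ext x
  constructor
  · rintro ⟨b, rfl⟩
    exact ⟨b * a, by group⟩
  · rintro ⟨b, rfl⟩
    exact ⟨b * a⁻¹, by group⟩

end Group

/-! ### conjugation-stable sets of `Gal(M/ℚ)` -/

section Stable

variable (M : IntermediateField ℚ Qb) [FiniteDimensional ℚ M] [IsGalois ℚ M]

theorem frobSet_mono {G : Type} [MulOneClass G] (φ : DS.GQ →* G) (S : Finset ℕ) {C C' : Set G}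
    (h : C ⊆ C') : DS.frobSet φ S C ⊆ DS.frobSet φ S C' := by
  rintro p ⟨hp, hpS, hfr⟩
  exact ⟨hp, hpS, fun A hA σ hσ => h (hfr A hA σ hσ)⟩

theorem disjoint_frobSet_of_disjoint {G : Type} [MulOneClass G] (φ : DS.GQ →* G) (S : Finset ℕ)
    {C C' : Set G} (h : Disjoint C C') : Disjoint (DS.frobSet φ S C) (DS.frobSet φ S C') := by
  rw [Set.disjoint_left]
  rintro p ⟨hp, -, hfr₁⟩ ⟨-, -, hfr₂⟩
  obtain ⟨A, σ, hA, hσ⟩ := Helper5.exists_isFrobeniusAt p hp
  exact Set.disjoint_left.mp h (hfr₁ A hA σ hσ) (hfr₂ A hA σ hσ)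

open scoped Classical in
/-- **Chebotarev for a conjugation-stable subset of `Gal(M/ℚ)`**, `√-1 ∈ M`. -/
theorem lowerDensityGE_frobSet_of_stable (hB : CycloTopStmt) {I : Qb} (hI : I ∈ M)
    (hI2 : I ^ 2 = -1) (S : Finset ℕ) (C' : Set (M ≃ₐ[ℚ] M))
    (hC' : ∀ g h : M ≃ₐ[ℚ] M, h ∈ C' → g * h * g⁻¹ ∈ C') :
    LowerDensityGE (DS.frobSet (resM M) S C')
      ((Nat.card C' : ℝ) / (Nat.card (M ≃ₐ[ℚ] M) : ℝ)) := by
  haveI : Fintype (ConjClasses (M ≃ₐ[ℚ] M)) := Fintype.ofFinite _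
  set rep : ConjClasses (M ≃ₐ[ℚ] M) → (M ≃ₐ[ℚ] M) := fun q => Quotient.out q with hrep
  have hrepq : ∀ q, ConjClasses.mk (rep q) = q := fun q => Quotient.out_eq q
  set J : Finset (ConjClasses (M ≃ₐ[ℚ] M)) := {q | rep q ∈ C'} with hJ
  have hGpos : (0 : ℝ) < (Nat.card (M ≃ₐ[ℚ] M) : ℝ) := by exact_mod_cast Nat.card_pos
  have hdens : ∀ q ∈ J, LowerDensityGE (DS.frobSet (resM M) S (conjSet (rep q)))
      ((Nat.card (conjSet (rep q)) : ℝ) / (Nat.card (M ≃ₐ[ℚ] M) : ℝ)) := by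
    intro q _
    refine (lowerDensityGE_conjSet hB M hI hI2 (rep q) S).mono (le_of_eq ?_)
    have h1 := natCard_conjSet_mul (rep q)
    have hZpos : (0 : ℝ) <
        (Nat.card (Subgroup.centralizer ({rep q} : Set (M ≃ₐ[ℚ] M))) : ℝ) := by
      exact_mod_cast Nat.card_pos
    have h2 : (Nat.card (conjSet (rep q)) : ℝ) *
        (Nat.card (Subgroup.centralizer ({rep q} : Set (M ≃ₐ[ℚ] M))) : ℝ) =
        (Nat.card (M ≃ₐ[ℚ] M) : ℝ) := by exact_mod_cast h1
    rw [div_eq_div_iff hGpos.ne' hZpos.ne', one_mul]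
    exact h2
  have hdisj : ∀ q ∈ J, ∀ q' ∈ J, q ≠ q' → Disjoint
      (DS.frobSet (resM M) S (conjSet (rep q))) (DS.frobSet (resM M) S (conjSet (rep q'))) := by
    intro q _ q' _ hqq'
    apply disjoint_frobSet_of_disjoint
    rw [Set.disjoint_left]
    rintro x ⟨a, rfl⟩ ⟨b, hb⟩
    apply hqq'
    rw [← hrepq q, ← hrepq q', ConjClasses.mk_eq_mk_iff_isConj, isConj_iff]
    refine ⟨b⁻¹ * a, ?_⟩
    have : rep q' = b⁻¹ * (a * rep q * a⁻¹) * b := by rw [hb]; group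
    rw [this]
    group
  have hunion := lowerDensityGE_biUnion J
    (fun q => DS.frobSet (resM M) S (conjSet (rep q)))
    (fun q => (Nat.card (conjSet (rep q)) : ℝ) / (Nat.card (M ≃ₐ[ℚ] M) : ℝ)) hdens hdisj
  have hsubC : ∀ q ∈ J, conjSet (rep q) ⊆ C' := by
    rintro q hq x ⟨a, rfl⟩
    exact hC' a _ (Finset.mem_filter.mp hq).2
  have hsub : (⋃ q ∈ J, DS.frobSet (resM M) S (conjSet (rep q))) ⊆ DS.frobSet (resM M) S C' := by
    intro p hp
    simp only [Set.mem_iUnion] at hp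
    obtain ⟨q, hq, hpq⟩ := hp
    exact frobSet_mono (resM M) S (hsubC q hq) hpq
  have hcover : C' ⊆ ⋃ q ∈ J, conjSet (rep q) := by
    intro x hx
    simp only [Set.mem_iUnion]
    have h1 : IsConj (rep (ConjClasses.mk x)) x := by
      rw [← ConjClasses.mk_eq_mk_iff_isConj, hrepq]
    obtain ⟨c, hc⟩ := isConj_iff.mp h1
    have h2 : rep (ConjClasses.mk x) ∈ C' := by
      have : rep (ConjClasses.mk x) = c⁻¹ * x * c⁻¹⁻¹ := by
        calc rep (ConjClasses.mk x)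
            = c⁻¹ * (c * rep (ConjClasses.mk x) * c⁻¹) * c⁻¹⁻¹ := by group
          _ = c⁻¹ * x * c⁻¹⁻¹ := by rw [hc]
      rw [this]
      exact hC' _ _ hx
    exact ⟨ConjClasses.mk x, Finset.mem_filter.mpr ⟨Finset.mem_univ _, h2⟩, c, hc.symm⟩
  have hsum : (Nat.card C' : ℝ) / (Nat.card (M ≃ₐ[ℚ] M) : ℝ) ≤
      ∑ q ∈ J, (Nat.card (conjSet (rep q)) : ℝ) / (Nat.card (M ≃ₐ[ℚ] M) : ℝ) := by
    rw [← Finset.sum_div]
    refine div_le_div_of_nonneg_right ?_ hGpos.le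
    have h1 : C'.ncard ≤ (⋃ q ∈ J, conjSet (rep q)).ncard :=
      Set.ncard_le_ncard hcover (Set.toFinite _)
    have h2 := Finset.set_ncard_biUnion_le J (fun q => conjSet (rep q))
    have h3 : Nat.card C' ≤ ∑ q ∈ J, Nat.card (conjSet (rep q)) := by
      simp only [Nat.card_coe_set_eq]
      exact h1.trans h2
    exact_mod_cast h3
  exact (hunion.mono hsum).mono_set hsub

end Stable

/-! ### the main theorem -/

/-- **Chebotarev's density theorem (lower-density form) from the cyclotomic-top statement.** -/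
theorem chebotarevStmt_of_cycloTop (hB : CycloTopStmt) : DS.ChebotarevStmt := by
  intro G _ _ φ hfin hsurj S _ C hC
  classical
  obtain ⟨L, hLfin, hL⟩ := hfin
  haveI := hLfin
  obtain ⟨I, hI2⟩ : ∃ I : Qb, I ^ 2 = -1 :=
    IsAlgClosed.exists_pow_nat_eq (-1 : Qb) (by norm_num)
  haveI : FiniteDimensional ℚ ℚ⟮I⟯ :=
    IntermediateField.adjoin.finiteDimensional (Algebra.IsIntegral.isIntegral I)
  haveI : FiniteDimensional ℚ ↥(L ⊔ ℚ⟮I⟯) := IntermediateField.finiteDimensional_sup L ℚ⟮I⟯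
  haveI : FiniteDimensional ℚ (IntermediateField.normalClosure ℚ ↥(L ⊔ ℚ⟮I⟯) Qb) :=
    normalClosure.is_finiteDimensional ℚ ↥(L ⊔ ℚ⟮I⟯) Qb
  haveI : Normal ℚ (IntermediateField.normalClosure ℚ ↥(L ⊔ ℚ⟮I⟯) Qb) :=
    normalClosure.normal ℚ ↥(L ⊔ ℚ⟮I⟯) Qb
  haveI : IsGalois ℚ (IntermediateField.normalClosure ℚ ↥(L ⊔ ℚ⟮I⟯) Qb) := ⟨⟩
  set M : IntermediateField ℚ Qb := IntermediateField.normalClosure ℚ ↥(L ⊔ ℚ⟮I⟯) Qb with hM
  have hL₁M : L ⊔ ℚ⟮I⟯ ≤ M := IntermediateField.le_normalClosure (L ⊔ ℚ⟮I⟯)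
  have hIM : I ∈ M :=
    hL₁M ((le_sup_right : ℚ⟮I⟯ ≤ L ⊔ ℚ⟮I⟯) (IntermediateField.mem_adjoin_simple_self ℚ I))
  have hLM : L ≤ M := le_sup_left.trans hL₁M
  -- `φ` factors through `Gal(M/ℚ)`
  have hker : (resM M).ker ≤ φ.ker := by
    intro σ hσ
    rw [MonoidHom.mem_ker] at hσ ⊢
    apply hL
    intro x hx
    have h1 := AlgEquiv.restrictNormal_commutes σ M ⟨x, hLM hx⟩
    have h2 : AlgEquiv.restrictNormal σ M = 1 := hσ
    rw [h2] at h1
    exact h1.symm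
  have hres : Function.Surjective (resM M) := AlgEquiv.restrictNormalHom_surjective Qb
  set ψ : (M ≃ₐ[ℚ] M) →* G := (resM M).liftOfSurjective hres ⟨φ, hker⟩ with hψdef
  have hψ : ∀ σ, ψ (resM M σ) = φ σ := fun σ =>
    MonoidHom.liftOfRightInverse_comp_apply _ _ _ ⟨φ, hker⟩ σ
  have hψsurj : Function.Surjective ψ := by
    intro g
    obtain ⟨σ, hσ⟩ := hsurj g
    exact ⟨resM M σ, by rw [hψ, hσ]⟩
  have hC' : ∀ g h : M ≃ₐ[ℚ] M, h ∈ ψ ⁻¹' C → g * h * g⁻¹ ∈ ψ ⁻¹' C := by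
    intro g h hh
    rw [Set.mem_preimage, map_mul, map_mul, map_inv]
    exact hC _ _ hh
  have h1 := lowerDensityGE_frobSet_of_stable M hB hIM hI2 S (ψ ⁻¹' C) hC'
  have hsub : DS.frobSet (resM M) S (ψ ⁻¹' C) ⊆ DS.frobSet φ S C := by
    rintro p ⟨hp, hpS, hfr⟩
    refine ⟨hp, hpS, fun A hA σ hσ => ?_⟩
    have h2 := hfr A hA σ hσ
    rw [Set.mem_preimage, hψ] at h2
    exact h2
  have hcard : (Nat.card (ψ ⁻¹' C) : ℝ) / (Nat.card (M ≃ₐ[ℚ] M) : ℝ) =
      (Nat.card C : ℝ) / (Nat.card G : ℝ) := by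
    have h3 := natCard_preimage_mul ψ hψsurj C
    have hG : (0 : ℝ) < (Nat.card G : ℝ) := by exact_mod_cast Nat.card_pos
    have hG' : (0 : ℝ) < (Nat.card (M ≃ₐ[ℚ] M) : ℝ) := by exact_mod_cast Nat.card_pos
    rw [div_eq_div_iff hG'.ne' hG.ne']
    exact_mod_cast h3
  rw [← hcard]
  exact h1.mono_set hsub

end Fermat.Agent.S48lib.Cheb.Gal
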