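/-
S48 / Cheb: **Chebotarev's density theorem, `DS.ChebotarevStmt`** (block U3 of the S48 plan) =
helper8's analytic half (`Cheb.cycloTopStmt`) + helper4's Galois half
(`Gal.chebotarevStmt_of_cycloTop`).
-/
import Fermat.Agent.S48lib.Cheb.CycloTop
import Fermat.Agent.S48lib.Cheb.Gal.Main

set_option autoImplicit false

namespace Fermat.Agent.S48lib.Cheb

/-- **Chebotarev's density theorem** in the lower-density form used by Deligne–Serre. -/
theorem chebotarevStmt : DS.ChebotarevStmt :=
  Gal.chebotarevStmt_of_cycloTop cycloTopStmt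

end Fermat.Agent.S48lib.Cheb
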