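/-
S48 / Cheb, Galois half (helper4): dictionary with the Prelude's Frobenius elements and the
density of ONE conjugacy class from `CycloTopStmt` + Deuring's reduction.

`M ≤ ℚ̄` finite Galois over `ℚ`, `g ∈ Gal(M/ℚ)` such that `M = F(ζ_m)` for the fixed field `F` of
`g`, and `F` is totally complex.  Then the primes whose Frobenius class in `Gal(M/ℚ)` is the class
of `g` have lower Dirichlet density at least `1 / |Z(g)|`.
-/
import Fermat.Agent.S48lib.Cheb.Gal.Stmt
import Fermat.Agent.S48lib.Cheb.Gal.Deuring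
import Fermat.Agent.S48lib.DS.Inputs
import Fermat.Agent.S29lib.X.FrobSplit
import Fermat.Agent.S56lib.TWSel.Places

set_option autoImplicit false
set_option linter.unusedSectionVars false
set_option linter.style.haveILetI false

open NumberField IsDedekindDomain Ideal

namespace Fermat.Agent.S48lib.Cheb.Gal

open Fermat.Agent.ExtVan Fermat.Agent.ExtVan.InertiaLift Fermat.Agent.S29lib.X

/-! ### a lower bound with `O(1)` error gives a lower density -/

theorem lowerDensityGE_of_bound {B : Set ℕ} {c C : ℝ}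
    (h : ∀ s ∈ Set.Ioc (1 : ℝ) 2, c * Real.log (1 / (s - 1)) - C ≤ primeSum B s) :
    LowerDensityGE B c := by
  intro c' hc'
  have hε : 0 < c - c' := sub_pos.mpr hc'
  obtain ⟨δ, hδ, hδ1, hs⟩ := Dens.exists_delta_log_ge (C / (c - c'))
  refine ⟨δ, hδ, fun s hs1 hs2 => ?_⟩
  have h1 := hs s hs1 hs2
  have h2 := h s ⟨hs1, by linarith⟩
  have h3 : C ≤ (c - c') * Real.log (1 / (s - 1)) := by
    rw [div_le_iff₀ hε] at h1
    linarith
  nlinarith

/-! ### the dictionary -/

section Dict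

variable (M : IntermediateField ℚ Qb) [FiniteDimensional ℚ M] [IsGalois ℚ M]

/-- restriction `G_ℚ → Gal(M/ℚ)`. -/
noncomputable abbrev resM : DS.GQ →* (M ≃ₐ[ℚ] M) := AlgEquiv.restrictNormalHom M

/-- a Frobenius element at a place `A | p` of `ℚ̄` restricts to a Frobenius element at the prime
of `𝓞 M` below `A`. -/
theorem res_smul_sub_pow_mem {p : ℕ} {A : ValuationSubring Qb} {σ : DS.GQ}
    (hσ : A.IsFrobeniusAt σ p) (x : 𝓞 M) : resM M σ • x - x ^ p ∈ primeBelowVal M A := by
  rw [primeBelowVal, RingHom.mem_ker, toResidue, RingHom.comp_apply,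
    IsLocalRing.residue_eq_zero_iff, ← ValuationSubring.coe_mem_nonunits_iff, coe_toValSub]
  have h1 := (S56lib.TWSel.isFrobeniusAt_iff.mp hσ).2 _ (coe_mem_valuationSubring M A x)
  have h2 : (((resM M σ • x - x ^ p : 𝓞 M) : M) : Qb) =
      σ (((x : 𝓞 M) : M) : Qb) - (((x : 𝓞 M) : M) : Qb) ^ p := by
    have h3 : (((resM M σ • x : 𝓞 M) : M) : Qb) = σ (((x : 𝓞 M) : M) : Qb) :=
      AlgEquiv.restrictNormal_commutes σ M ((x : 𝓞 M) : M)
    simp only [map_sub, map_pow]
    rw [← h3]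
    push_cast
    rfl
  rw [h2]
  exact h1

/-- the conjugacy class of `g`, as a set. -/
def conjSet {G : Type*} [Group G] (g : G) : Set G := {τ | ∃ h : G, τ = h * g * h⁻¹}

theorem conjSet_stable {G : Type*} [Group G] (g : G) (a b : G) (hb : b ∈ conjSet g) :
    a * b * a⁻¹ ∈ conjSet g := by
  obtain ⟨h, rfl⟩ := hb
  exact ⟨a * h, by group⟩

/-- **dictionary**: the rational primes below `degOneFrobSet g T` have Frobenius class the class
of `g`. -/
theorem normSet_subset_frobSet (g : M ≃ₐ[ℚ] M) (S T : Finset ℕ) (hST : S ⊆ T)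
    (hT : ∀ p : ℕ, p.Prime → p ∉ T → ¬ (p : ℤ) ∣ NumberField.discr M) :
    normSet g T ⊆ DS.frobSet (resM M) S (conjSet g) := by
  intro p hp
  refine ⟨prime_of_mem_normSet hp, fun h => not_mem_of_mem_normSet hp (hST h), ?_⟩
  intro A hA σ hσ
  exact exists_conj_of_mem_normSet g T hT hp (primeBelowVal M A)
    (natCast_mem_primeBelowVal M hA) (res_smul_sub_pow_mem M hσ)

/-- **the density of one conjugacy class**, from the cyclotomic-top statement. -/
theorem lowerDensityGE_conjSet_of_cycloTop (hB : CycloTopStmt) (g : M ≃ₐ[ℚ] M) {m : ℕ}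
    (hm : m.Prime) (hcyc : IsCyclotomicExtension {m} (fixF g) M)
    (htc : NumberField.IsTotallyComplex (fixF g)) (S : Finset ℕ) :
    LowerDensityGE (DS.frobSet (resM M) S (conjSet g))
      (1 / (Nat.card (Subgroup.centralizer ({g} : Set (M ≃ₐ[ℚ] M))) : ℝ)) := by
  classical
  have hdisc : NumberField.discr M ≠ 0 := NumberField.discr_ne_zero M
  set T : Finset ℕ := S ∪ (NumberField.discr M).natAbs.primeFactors with hTdef
  have hT : ∀ p : ℕ, p.Prime → p ∉ T → ¬ (p : ℤ) ∣ NumberField.discr M := by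
    intro p hp hpT hdvd
    apply hpT
    rw [hTdef, Finset.mem_union]
    right
    rw [Nat.mem_primeFactors]
    exact ⟨hp, Int.natCast_dvd.mp hdvd, by simpa using hdisc⟩
  set SF : Finset (HeightOneSpectrum (𝓞 (fixF g))) :=
    (S31lib.finite_setOf_primeBelow_mem (F := fixF g) T).toFinset with hSF
  have hmemQ : ∀ (q : HeightOneSpectrum (𝓞 (fixF g))) (Q : Ideal (𝓞 M)), Q.LiesOver q.asIdeal →
      ((DegOne.primeBelow q : ℕ) : 𝓞 M) ∈ Q := by
    intro q Q hQq
    have h1 : ((DegOne.primeBelow q : ℕ) : 𝓞 (fixF g)) ∈ q.asIdeal := by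
      have h := (DegOne.liesOver_primeBelow q).over
      have h2 : ((DegOne.primeBelow q : ℕ) : ℤ) ∈ Ideal.span {((DegOne.primeBelow q : ℕ) : ℤ)} :=
        Ideal.subset_span rfl
      rw [h] at h2
      simpa using h2
    have h3 := hQq.over
    rw [h3] at h1
    simpa using h1
  have hSram : ∀ q ∉ SF, ∀ Q : Ideal (𝓞 M), Q.IsPrime → Q.LiesOver q.asIdeal →
      Q.ramificationIdx (𝓞 (fixF g)) = 1 := by
    intro q hq Q hQ hQq
    have hqT : DegOne.primeBelow q ∉ T := by
      intro h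
      apply hq
      rw [hSF, Set.Finite.mem_toFinset]
      exact h
    exact S31lib.ramificationIdx_eq_one_of_not_dvd_discr (DegOne.primeBelow_prime q)
      (hT _ (DegOne.primeBelow_prime q) hqT) Q (hmemQ q Q hQq)
  obtain ⟨B, hBs⟩ := hB (fixF g) M m hm hcyc htc SF hSram (gF g)
  -- the set of the statement is contained in `degOneFrobSet g T`
  have hsub : {q : HeightOneSpectrum (𝓞 (fixF g)) | q ∉ SF ∧ (absNorm q.asIdeal).Prime ∧
      frob (fixF g) M q = gF g} ⊆ degOneFrobSet g T := by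
    rintro q ⟨hqS, hqp, hqf⟩
    refine ⟨hqp, ?_, hqf⟩
    have hℓq : DegOne.primeBelow q = absNorm q.asIdeal := by
      have h1 := DegOne.primeBelow_pow_inertiaDeg q
      have hp := DegOne.primeBelow_prime q
      have h2 : DegOne.primeBelow q ∣ absNorm q.asIdeal := by
        rw [← h1]
        exact dvd_pow_self _ (Ideal.inertiaDeg_pos q.asIdeal ℤ).ne'
      exact (Nat.prime_dvd_prime_iff_eq hp hqp).mp h2
    intro h
    apply hqS
    rw [hSF, Set.Finite.mem_toFinset, Set.mem_ofPred_eq, hℓq]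
    exact h
  have hZ : (0 : ℝ) < Nat.card (Subgroup.centralizer ({g} : Set (M ≃ₐ[ℚ] M))) := by
    exact_mod_cast Nat.card_pos
  have hord : (0 : ℝ) < orderOf g := by exact_mod_cast orderOf_pos g
  apply lowerDensityGE_of_bound (C := B * (orderOf g : ℝ) /
    (Nat.card (Subgroup.centralizer ({g} : Set (M ≃ₐ[ℚ] M))) : ℝ))
  intro s hs
  have h1 := hBs s hs
  rw [finrank_fixF] at h1
  have h2 : ∑' q : HeightOneSpectrum (𝓞 (fixF g)),
      {q : HeightOneSpectrum (𝓞 (fixF g)) | q ∉ SF ∧ (absNorm q.asIdeal).Prime ∧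
        frob (fixF g) M q = gF g}.indicator (fun q => (absNorm q.asIdeal : ℝ) ^ (-s)) q ≤
      ∑' q : HeightOneSpectrum (𝓞 (fixF g)),
        (degOneFrobSet g T).indicator (fun q => (absNorm q.asIdeal : ℝ) ^ (-s)) q := by
    refine (S31lib.summable_indicator_wt _ hs.1).tsum_le_tsum ?_
      (S31lib.summable_indicator_wt _ hs.1)
    intro q
    exact Set.indicator_le_indicator_of_subset hsub (fun q => S31lib.wt_nonneg s q) q
  have h3 := tsum_degOneFrobSet_le g T hT hs.1
  have h4 := Dens.primeSum_mono (normSet_subset_frobSet M g S T Finset.subset_union_left hT) hs.1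
  have h5 : (1 / (orderOf g : ℝ)) * Real.log (1 / (s - 1)) - B ≤
      ((Nat.card (Subgroup.centralizer ({g} : Set (M ≃ₐ[ℚ] M))) : ℝ) / (orderOf g : ℝ)) *
        primeSum (DS.frobSet (resM M) S (conjSet g)) s :=
    h1.trans (h2.trans (h3.trans (mul_le_mul_of_nonneg_left h4 (by positivity))))
  have h6 : (1 / (Nat.card (Subgroup.centralizer ({g} : Set (M ≃ₐ[ℚ] M))) : ℝ)) *
      Real.log (1 / (s - 1)) - B * (orderOf g : ℝ) /
        (Nat.card (Subgroup.centralizer ({g} : Set (M ≃ₐ[ℚ] M))) : ℝ) =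
      ((orderOf g : ℝ) / (Nat.card (Subgroup.centralizer ({g} : Set (M ≃ₐ[ℚ] M))) : ℝ)) *
        ((1 / (orderOf g : ℝ)) * Real.log (1 / (s - 1)) - B) := by
    field_simp
  rw [h6]
  calc ((orderOf g : ℝ) / (Nat.card (Subgroup.centralizer ({g} : Set (M ≃ₐ[ℚ] M))) : ℝ)) *
        ((1 / (orderOf g : ℝ)) * Real.log (1 / (s - 1)) - B)
      ≤ ((orderOf g : ℝ) / (Nat.card (Subgroup.centralizer ({g} : Set (M ≃ₐ[ℚ] M))) : ℝ)) *
        (((Nat.card (Subgroup.centralizer ({g} : Set (M ≃ₐ[ℚ] M))) : ℝ) / (orderOf g : ℝ)) *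
          primeSum (DS.frobSet (resM M) S (conjSet g)) s) :=
        mul_le_mul_of_nonneg_left h5 (by positivity)
    _ = primeSum (DS.frobSet (resM M) S (conjSet g)) s := by field_simp

end Dict

end Fermat.Agent.S48lib.Cheb.Gal
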