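/-
S48 / Cheb, Galois half (helper4), brick (C): Deuring's reduction.  `M/ℚ` finite Galois,
`g ∈ Gal(M/ℚ)`, `F` the fixed field of `g`.  The degree-one primes `𝔯` of `F` with Frobenius `g`
in `Gal(M/F)` lie over rational primes whose Frobenius class is the class of `g`, and over each
rational prime there are at most `|Z(g)| / ord g` of them.
-/
import Mathlib
import Fermat.Agent.ExtVan.Artin
import Fermat.Agent.S31lib.WeakChebGQ
import Fermat.Agent.S48lib.Dens.Basic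

set_option autoImplicit false
set_option linter.unusedSectionVars false
set_option linter.style.haveILetI false

open NumberField IsDedekindDomain Ideal
open scoped Pointwise

namespace Fermat.Agent.S48lib.Cheb.Gal

open Fermat.Agent.ExtVan

/-! ### Frobenius elements over `ℤ` -/

section Frob

variable {M : Type*} [Field M] [NumberField M] [IsGalois ℚ M]

theorem span_natCast_isMaximal {p : ℕ} (hp : p.Prime) : (Ideal.span {(p : ℤ)}).IsMaximal :=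
  (Ideal.span_singleton_prime (by exact_mod_cast hp.ne_zero)).mpr
    (Nat.prime_iff_prime_int.mp hp) |>.isMaximal (by simpa using hp.ne_zero)

theorem under_int_eq_span_of_mem (Q : Ideal (𝓞 M)) [Q.IsPrime] {p : ℕ} (hp : p.Prime)
    (hpQ : (p : 𝓞 M) ∈ Q) : Q.under ℤ = Ideal.span {(p : ℤ)} := by
  symm
  refine (span_natCast_isMaximal hp).eq_of_le (Ideal.IsPrime.ne_top inferInstance) ?_
  rw [Ideal.span_singleton_le_iff_mem, Ideal.under, Ideal.mem_comap]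
  simpa using hpQ

theorem isArithFrobAt_int_iff (Q : Ideal (𝓞 M)) [Q.IsPrime] {p : ℕ} (hp : p.Prime)
    (hpQ : (p : 𝓞 M) ∈ Q) (τ : M ≃ₐ[ℚ] M) :
    IsArithFrobAt ℤ τ Q ↔ ∀ x : 𝓞 M, τ • x - x ^ p ∈ Q := by
  have hcard : Nat.card (ℤ ⧸ Q.under ℤ) = p := by
    rw [under_int_eq_span_of_mem Q hp hpQ, Int.card_ideal_quot]
  constructor
  · intro h x
    have := h x
    rw [hcard] at this
    exact this
  · intro h x
    rw [hcard]
    exact h x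

/-- an automorphism of `M` over `ℚ` is determined by its action on `𝓞 M`. -/
theorem algEquiv_ext_of_forall_int {τ τ' : M ≃ₐ[ℚ] M} (h : ∀ x : 𝓞 M, τ (x : M) = τ' (x : M)) :
    τ = τ' := by
  refine AlgEquiv.ext fun y => ?_
  obtain ⟨a, b, -, rfl⟩ := IsFractionRing.div_surjective (A := 𝓞 M) y
  rw [map_div₀, map_div₀]
  exact congrArg₂ (· / ·) (h a) (h b)

/-- **uniqueness of Frobenius** over a rational prime not dividing the discriminant. -/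
theorem eq_of_isArithFrobAt {p : ℕ} (hp : p.Prime) (hd : ¬ (p : ℤ) ∣ NumberField.discr M)
    (Q : Ideal (𝓞 M)) [Q.IsPrime] (hpQ : (p : 𝓞 M) ∈ Q) {τ τ' : M ≃ₐ[ℚ] M}
    (H : IsArithFrobAt ℤ τ Q) (H' : IsArithFrobAt ℤ τ' Q) : τ = τ' := by
  haveI := S31lib.isUnramifiedAt_int_of_not_dvd_discr hp hd Q hpQ
  have heq := AlgHom.IsArithFrobAt.eq_of_isUnramifiedAt H H' (by
    intro x hx
    rw [mem_nonZeroDivisors_iff_ne_zero]
    rintro rfl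
    exact hx Q.zero_mem)
  apply algEquiv_ext_of_forall_int
  intro x
  have := congrArg (fun f : 𝓞 M →ₐ[ℤ] 𝓞 M => ((f x : 𝓞 M) : M)) heq
  exact this

/-- `Gal(M/ℚ)` permutes the primes of `𝓞 M` containing `p` transitively. -/
theorem exists_smul_eq_of_natCast_mem {p : ℕ} (hp : p.Prime) (P Q : Ideal (𝓞 M)) [P.IsPrime]
    [Q.IsPrime] (hP : (p : 𝓞 M) ∈ P) (hQ : (p : 𝓞 M) ∈ Q) : ∃ h : M ≃ₐ[ℚ] M, Q = h • P :=
  Algebra.IsInvariant.exists_smul_of_under_eq ℤ (𝓞 M) (M ≃ₐ[ℚ] M) P Q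
    ((under_int_eq_span_of_mem P hp hP).trans (under_int_eq_span_of_mem Q hp hQ).symm)

/-- all Frobenius elements over an unramified `p` are conjugate. -/
theorem exists_conj_eq_of_isArithFrobAt {p : ℕ} (hp : p.Prime)
    (hd : ¬ (p : ℤ) ∣ NumberField.discr M) (P Q : Ideal (𝓞 M)) [P.IsPrime] [Q.IsPrime]
    (hP : (p : 𝓞 M) ∈ P) (hQ : (p : 𝓞 M) ∈ Q) {g τ : M ≃ₐ[ℚ] M} (Hg : IsArithFrobAt ℤ g P)
    (Hτ : IsArithFrobAt ℤ τ Q) : ∃ h : M ≃ₐ[ℚ] M, Q = h • P ∧ τ = h * g * h⁻¹ := by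
  obtain ⟨h, rfl⟩ := exists_smul_eq_of_natCast_mem hp P Q hP hQ
  exact ⟨h, rfl, eq_of_isArithFrobAt hp hd (h • P) hQ Hτ (Hg.conj h)⟩

end Frob

/-! ### Deuring's reduction -/

section Deuring

variable {M : Type*} [Field M] [NumberField M] [IsGalois ℚ M] (g : M ≃ₐ[ℚ] M)

/-- the fixed field of `g`. -/
abbrev fixF : IntermediateField ℚ M := IntermediateField.fixedField (Subgroup.zpowers g)

instance isCyclic_gal_fixF : IsCyclic (M ≃ₐ[fixF g] M) :=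
  (IntermediateField.subgroupEquivAlgEquiv (Subgroup.zpowers g)).isCyclic.mp inferInstance

instance isAbelianGalois_fixF : IsAbelianGalois (fixF g) M := IsAbelianGalois.of_isCyclic _ _

/-- `g` as an element of `Gal(M/F)`. -/
noncomputable def gF : M ≃ₐ[fixF g] M :=
  IntermediateField.subgroupEquivAlgEquiv (Subgroup.zpowers g) ⟨g, Subgroup.mem_zpowers g⟩

theorem gF_apply (x : M) : gF g x = g x := rfl

theorem gF_smul (x : 𝓞 M) : gF g • x = g • x := rfl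

theorem finrank_fixF : Module.finrank (fixF g) M = orderOf g := by
  rw [IntermediateField.finrank_fixedField_eq_card, Nat.card_zpowers]

/-- the primes of `F` of degree one, of norm outside `T`, with Frobenius `g`. -/
def degOneFrobSet (T : Finset ℕ) : Set (HeightOneSpectrum (𝓞 (fixF g))) :=
  {𝔯 | (absNorm 𝔯.asIdeal).Prime ∧ absNorm 𝔯.asIdeal ∉ T ∧ frob (fixF g) M 𝔯 = gF g}

variable {g}

theorem natCast_mem_of_liesOver {𝔯 : HeightOneSpectrum (𝓞 (fixF g))} (𝔓 : Ideal (𝓞 M))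
    [𝔓.LiesOver 𝔯.asIdeal] : ((absNorm 𝔯.asIdeal : ℕ) : 𝓞 M) ∈ 𝔓 := by
  have h1 : ((absNorm 𝔯.asIdeal : ℕ) : 𝓞 (fixF g)) ∈ 𝔯.asIdeal := Ideal.absNorm_mem _
  have h2 : ((absNorm 𝔯.asIdeal : ℕ) : 𝓞 (fixF g)) ∈ 𝔓.under (𝓞 (fixF g)) := by
    rw [← 𝔓.over_def 𝔯.asIdeal]
    exact h1
  rw [Ideal.under_def, Ideal.mem_comap, map_natCast] at h2
  exact h2

theorem isArithFrobAt_of_mem_degOneFrobSet {T : Finset ℕ} {𝔯 : HeightOneSpectrum (𝓞 (fixF g))}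
    (h𝔯 : 𝔯 ∈ degOneFrobSet g T) (𝔓 : Ideal (𝓞 M)) [𝔓.IsPrime] [𝔓.LiesOver 𝔯.asIdeal] :
    IsArithFrobAt ℤ g 𝔓 := by
  rw [isArithFrobAt_int_iff 𝔓 h𝔯.1 (natCast_mem_of_liesOver 𝔓)]
  intro x
  have h1 := frob_smul_sub_pow_mem (fixF g) M 𝔯 𝔓 x
  rw [h𝔯.2.2, gF_smul] at h1
  exact h1

variable (g) in
/-- **Deuring's count**: over an unramified rational prime `p` there are at most `|Z(g)| / ord g`
primes of `F` of degree one with Frobenius `g`. -/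
theorem card_fiber_mul_orderOf_le {p : ℕ} (hp : p.Prime) (hd : ¬ (p : ℤ) ∣ NumberField.discr M)
    (T : Finset ℕ) :
    Nat.card {𝔯 : HeightOneSpectrum (𝓞 (fixF g)) //
        𝔯 ∈ degOneFrobSet g T ∧ absNorm 𝔯.asIdeal = p} * orderOf g ≤
      Nat.card (Subgroup.centralizer ({g} : Set (M ≃ₐ[ℚ] M))) := by
  classical
  rcases isEmpty_or_nonempty {𝔯 : HeightOneSpectrum (𝓞 (fixF g)) //
      𝔯 ∈ degOneFrobSet g T ∧ absNorm 𝔯.asIdeal = p} with hX | ⟨⟨𝔯₀, h𝔯₀⟩⟩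
  · rw [Nat.card_of_isEmpty, zero_mul]
    exact Nat.zero_le _
  have hex : ∀ 𝔯 : {𝔯 : HeightOneSpectrum (𝓞 (fixF g)) //
      𝔯 ∈ degOneFrobSet g T ∧ absNorm 𝔯.asIdeal = p},
      ∃ 𝔓 : Ideal (𝓞 M), 𝔓.IsPrime ∧ 𝔓.LiesOver 𝔯.1.asIdeal := by
    intro 𝔯
    obtain ⟨⟨Q, hQ, hQq⟩⟩ := Ideal.nonempty_primesOver (S := 𝓞 M) 𝔯.1.asIdeal
    exact ⟨Q, hQ, hQq⟩
  choose 𝔓 h𝔓prime h𝔓over using hex
  have hmem : ∀ 𝔯, (p : 𝓞 M) ∈ 𝔓 𝔯 := by
    intro 𝔯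
    haveI := h𝔓over 𝔯
    have := natCast_mem_of_liesOver (𝔯 := 𝔯.1) (𝔓 𝔯)
    rwa [𝔯.2.2] at this
  have hfrob : ∀ 𝔯, IsArithFrobAt ℤ g (𝔓 𝔯) := by
    intro 𝔯
    haveI := h𝔓over 𝔯
    haveI := h𝔓prime 𝔯
    exact isArithFrobAt_of_mem_degOneFrobSet 𝔯.2.1 (𝔓 𝔯)
  set 𝔓₀ := 𝔓 ⟨𝔯₀, h𝔯₀⟩ with h𝔓₀
  haveI : 𝔓₀.IsPrime := h𝔓prime _
  have hh : ∀ 𝔯, ∃ h : M ≃ₐ[ℚ] M, 𝔓 𝔯 = h • 𝔓₀ ∧ g = h * g * h⁻¹ := by
    intro 𝔯
    haveI := h𝔓prime 𝔯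
    exact exists_conj_eq_of_isArithFrobAt hp hd 𝔓₀ (𝔓 𝔯) (hmem _) (hmem 𝔯) (hfrob _) (hfrob 𝔯)
  choose h hh1 hh2 using hh
  have hstab : ∀ c ∈ Subgroup.zpowers g, c • 𝔓₀ = 𝔓₀ := by
    intro c hc
    have h1 : Subgroup.zpowers g ≤ MulAction.stabilizer (M ≃ₐ[ℚ] M) 𝔓₀ := by
      rw [Subgroup.zpowers_le]
      exact (hfrob _).mem_stabilizer
    exact MulAction.mem_stabilizer_iff.mp (h1 hc)
  have hcent : ∀ (𝔯) (c : Subgroup.zpowers g),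
      h 𝔯 * c.1 ∈ Subgroup.centralizer ({g} : Set (M ≃ₐ[ℚ] M)) := by
    intro 𝔯 c
    rw [Subgroup.mem_centralizer_iff]
    intro x hx
    rw [Set.mem_singleton_iff] at hx
    subst hx
    have h1 : x * h 𝔯 = h 𝔯 * x := by
      have := hh2 𝔯
      calc x * h 𝔯 = h 𝔯 * x * (h 𝔯)⁻¹ * h 𝔯 := by rw [← this]
        _ = h 𝔯 * x := by group
    obtain ⟨j, hj⟩ := Subgroup.mem_zpowers_iff.mp c.2
    have h2 : x * c.1 = c.1 * x := by
      rw [← hj]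
      exact (Commute.zpow_right (Commute.refl x) j).eq
    calc x * (h 𝔯 * c.1) = (x * h 𝔯) * c.1 := by group
      _ = h 𝔯 * (x * c.1) := by rw [h1]; group
      _ = h 𝔯 * c.1 * x := by rw [h2]; group
  let f : {𝔯 : HeightOneSpectrum (𝓞 (fixF g)) //
      𝔯 ∈ degOneFrobSet g T ∧ absNorm 𝔯.asIdeal = p} × Subgroup.zpowers g →
      Subgroup.centralizer ({g} : Set (M ≃ₐ[ℚ] M)) := fun x => ⟨h x.1 * x.2.1, hcent x.1 x.2⟩
  have hf : Function.Injective f := by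
    rintro ⟨𝔯, c⟩ ⟨𝔯', c'⟩ hcc
    have h1 : h 𝔯 * c.1 = h 𝔯' * c'.1 := congrArg Subtype.val hcc
    have h2 : 𝔓 𝔯 = 𝔓 𝔯' := by
      rw [hh1 𝔯, hh1 𝔯', ← hstab c.1 c.2, ← mul_smul, h1, mul_smul, hstab c'.1 c'.2,
        hstab c.1 c.2]
    have h3 : 𝔯 = 𝔯' := by
      apply Subtype.ext
      apply HeightOneSpectrum.ext
      rw [(h𝔓over 𝔯).over, (h𝔓over 𝔯').over, h2]
    subst h3
    have h4 : c.1 = c'.1 := mul_left_cancel h1
    rw [Subtype.ext h4]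
  have := Nat.card_le_card_of_injective f hf
  rwa [Nat.card_prod, Nat.card_zpowers] at this

variable (g) in
theorem finite_fiber (p : ℕ) (T : Finset ℕ) :
    Finite {𝔯 : HeightOneSpectrum (𝓞 (fixF g)) //
        𝔯 ∈ degOneFrobSet g T ∧ absNorm 𝔯.asIdeal = p} := by
  haveI : Finite {I : Ideal (𝓞 (fixF g)) // absNorm I = p} :=
    (Ideal.finite_setOfPred_absNorm_eq p).to_subtype
  refine Finite.of_injective (fun 𝔯 =>
    (⟨𝔯.1.asIdeal, 𝔯.2.2⟩ : {I : Ideal (𝓞 (fixF g)) // absNorm I = p})) ?_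
  intro a b hab
  apply Subtype.ext
  apply HeightOneSpectrum.ext
  exact congrArg Subtype.val hab

variable (g) in
/-- the rational primes below `degOneFrobSet g T`. -/
def normSet (T : Finset ℕ) : Set ℕ :=
  {p | ∃ 𝔯 ∈ degOneFrobSet g T, absNorm 𝔯.asIdeal = p}

theorem prime_of_mem_normSet {T : Finset ℕ} {p : ℕ} (hp : p ∈ normSet g T) : p.Prime := by
  obtain ⟨𝔯, h𝔯, rfl⟩ := hp
  exact h𝔯.1

theorem not_mem_of_mem_normSet {T : Finset ℕ} {p : ℕ} (hp : p ∈ normSet g T) : p ∉ T := by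
  obtain ⟨𝔯, h𝔯, rfl⟩ := hp
  exact h𝔯.2.1

theorem sum_le_primeSum {B : Set ℕ} (I : Finset ℕ) (hI : ∀ p ∈ I, p.Prime ∧ p ∈ B) {s : ℝ}
    (hs : 1 < s) : ∑ p ∈ I, (p : ℝ) ^ (-s) ≤ primeSum B s := by
  classical
  let e : {x // x ∈ I} ↪ Nat.Primes :=
    ⟨fun x => ⟨x.1, (hI x.1 x.2).1⟩, fun a b hab => Subtype.ext (congrArg (fun q : Nat.Primes => (q : ℕ)) hab)⟩
  have h1 : ∑ p ∈ I, (p : ℝ) ^ (-s) = ∑ q ∈ I.attach.map e, Dens.psTerm B s q := by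
    rw [Finset.sum_map, ← Finset.sum_attach]
    refine Finset.sum_congr rfl fun x _ => ?_
    have h2 : Dens.psTerm B s (e x) = ((x : ℕ) : ℝ) ^ (-s) :=
      Set.indicator_of_mem (s := B) (hI x.1 x.2).2 (fun n : ℕ => (n : ℝ) ^ (-s))
    exact h2.symm
  rw [h1]
  exact (Dens.summable_indicator B hs).sum_le_tsum _ (fun q _ => Dens.psTerm_nonneg B s q)

variable (g) in
/-- **Deuring's inequality**: the mass of `degOneFrobSet g T` is at most `|Z(g)| / ord g` times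
the mass of the set of rational primes below it. -/
theorem tsum_degOneFrobSet_le (T : Finset ℕ)
    (hT : ∀ p : ℕ, p.Prime → p ∉ T → ¬ (p : ℤ) ∣ NumberField.discr M) {s : ℝ} (hs : 1 < s) :
    ∑' 𝔯 : HeightOneSpectrum (𝓞 (fixF g)),
        (degOneFrobSet g T).indicator (fun 𝔯 => (absNorm 𝔯.asIdeal : ℝ) ^ (-s)) 𝔯 ≤
      ((Nat.card (Subgroup.centralizer ({g} : Set (M ≃ₐ[ℚ] M))) : ℝ) / (orderOf g : ℝ)) *
        primeSum (normSet g T) s := by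
  classical
  have hord : (0 : ℝ) < orderOf g := by exact_mod_cast orderOf_pos g
  refine S31lib.tsum_indicator_le (degOneFrobSet g T) hs _ fun A hA => ?_
  set N : HeightOneSpectrum (𝓞 (fixF g)) → ℕ := fun 𝔯 => absNorm 𝔯.asIdeal with hN
  set I := A.image N with hI
  have h1 : ∑ 𝔯 ∈ A, S31lib.wt s 𝔯 = ∑ p ∈ I, ∑ 𝔯 ∈ A with N 𝔯 = p, (p : ℝ) ^ (-s) := by
    rw [← Finset.sum_fiberwise_of_maps_to (g := N) (t := I)
      (fun x hx => Finset.mem_image_of_mem _ hx)]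
    refine Finset.sum_congr rfl fun p _ => Finset.sum_congr rfl fun 𝔯 h𝔯 => ?_
    rw [← (Finset.mem_filter.mp h𝔯).2]
  have h2 : ∀ p ∈ I, ∑ 𝔯 ∈ A with N 𝔯 = p, (p : ℝ) ^ (-s) ≤
      ((Nat.card (Subgroup.centralizer ({g} : Set (M ≃ₐ[ℚ] M))) : ℝ) / (orderOf g : ℝ)) *
        (p : ℝ) ^ (-s) := by
    intro p hp
    rw [Finset.sum_const, nsmul_eq_mul]
    refine mul_le_mul_of_nonneg_right ?_ (by positivity)
    obtain ⟨𝔯₁, h𝔯₁A, rfl⟩ := Finset.mem_image.mp hp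
    have hpp : (N 𝔯₁).Prime := (hA _ h𝔯₁A).1
    have hpT : N 𝔯₁ ∉ T := (hA _ h𝔯₁A).2.1
    have hcount := card_fiber_mul_orderOf_le g hpp (hT _ hpp hpT) T
    haveI := finite_fiber g (N 𝔯₁) T
    have hle : (A.filter fun 𝔯 => N 𝔯 = N 𝔯₁).card ≤
        Nat.card {𝔯 : HeightOneSpectrum (𝓞 (fixF g)) //
          𝔯 ∈ degOneFrobSet g T ∧ absNorm 𝔯.asIdeal = N 𝔯₁} := by
      rw [← Nat.card_eq_finsetCard]
      exact Nat.card_le_card_of_injective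
        (fun x => ⟨x.1, hA _ (Finset.mem_filter.mp x.2).1, (Finset.mem_filter.mp x.2).2⟩)
        (fun a b h => Subtype.ext (congrArg (fun y => y.1) h))
    rw [le_div_iff₀ hord]
    exact_mod_cast (Nat.mul_le_mul_right _ hle).trans hcount
  have h3 : ∑ p ∈ I, (p : ℝ) ^ (-s) ≤ primeSum (normSet g T) s := by
    apply sum_le_primeSum I _ hs
    intro p hp
    obtain ⟨𝔯₁, h𝔯₁A, rfl⟩ := Finset.mem_image.mp hp
    exact ⟨(hA _ h𝔯₁A).1, 𝔯₁, hA _ h𝔯₁A, rfl⟩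
  rw [h1]
  calc ∑ p ∈ I, ∑ 𝔯 ∈ A with N 𝔯 = p, (p : ℝ) ^ (-s)
      ≤ ∑ p ∈ I, ((Nat.card (Subgroup.centralizer ({g} : Set (M ≃ₐ[ℚ] M))) : ℝ) /
          (orderOf g : ℝ)) * (p : ℝ) ^ (-s) := Finset.sum_le_sum h2
    _ = ((Nat.card (Subgroup.centralizer ({g} : Set (M ≃ₐ[ℚ] M))) : ℝ) / (orderOf g : ℝ)) *
          ∑ p ∈ I, (p : ℝ) ^ (-s) := by rw [Finset.mul_sum]
    _ ≤ _ := mul_le_mul_of_nonneg_left h3 (by positivity)

variable (g) in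
/-- over a prime in `normSet g T`, every Frobenius is conjugate to `g`. -/
theorem exists_conj_of_mem_normSet (T : Finset ℕ)
    (hT : ∀ p : ℕ, p.Prime → p ∉ T → ¬ (p : ℤ) ∣ NumberField.discr M) {p : ℕ}
    (hp : p ∈ normSet g T) (Q : Ideal (𝓞 M)) [Q.IsPrime] (hpQ : (p : 𝓞 M) ∈ Q) {τ : M ≃ₐ[ℚ] M}
    (hτ : ∀ x : 𝓞 M, τ • x - x ^ p ∈ Q) : ∃ h : M ≃ₐ[ℚ] M, τ = h * g * h⁻¹ := by
  obtain ⟨𝔯, h𝔯, rfl⟩ := hp
  obtain ⟨⟨P, hP, hPq⟩⟩ := Ideal.nonempty_primesOver (S := 𝓞 M) 𝔯.asIdeal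
  haveI := hP
  haveI := hPq
  have hpp := h𝔯.1
  obtain ⟨h, -, hh⟩ := exists_conj_eq_of_isArithFrobAt hpp (hT _ hpp h𝔯.2.1) P Q
    (natCast_mem_of_liesOver P) hpQ (isArithFrobAt_of_mem_degOneFrobSet h𝔯 P)
    ((isArithFrobAt_int_iff Q hpp hpQ τ).mpr hτ)
  exact ⟨h, hh⟩

end Deuring

end Fermat.Agent.S48lib.Cheb.Gal
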